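/-
S18, block D, leaf (D4-9), part 5 (helper21): the Hauptmodul `t₉ = (η(z)/η(9z))³ = q⁻¹ - 3 + …` of
`Γ₀(9)` with coefficients in an arbitrary commutative ring `R` (in particular a field of
characteristic `2`), and the relations with `j(q)`, `j(q³)`, `j(q⁹)` in `R((q))`.  For a field `k`:
`modularFunctionFieldFullC k 9 ≤ k(t₉)`.  (The level-9 twin of `Haupt/Level4ModC.lean`.)
-/
import Mathlib
import Fermat.Prelude.Def_ModularCurve_X0ModL
import Fermat.Agent.S18.Haupt9.Series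

set_option autoImplicit false

namespace Fermat.Agent.S18.Haupt9

open ModularCurve

noncomputable section

section Ring

variable (R : Type*) [CommRing R]

/-- the Hauptmodul `t₉ = q⁻¹ · tNum(q)` with coefficients in `R` -/
def t9C : LaurentSeries R :=
  HahnSeries.single (-1 : ℤ) 1 * HahnSeries.ofPowerSeries ℤ R (tNum.map (Int.castRingHom R))

variable {R} in
theorem coeffMap_t9C {S : Type*} [CommRing S] (f : R →+* S) : coeffMap f (t9C R) = t9C S := by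
  rw [t9C, map_mul, coeffMap_single, map_one, coeffMap_ofPowerSeries,
    ← RingHom.comp_apply (PowerSeries.map f) (PowerSeries.map (Int.castRingHom R)),
    ← PowerSeries.map_comp, RingHom.ext_int (f.comp (Int.castRingHom R)) (Int.castRingHom S)]
  rfl

theorem t9C_int : t9C ℤ = tZ := by
  rw [t9C, tZ_eq]
  congr 2

/-- `t₉` over `R` is the coefficientwise image of the integral series `tZ`. -/
theorem t9C_eq_coeffMap : t9C R = coeffMap (Int.castRingHom R) tZ := by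
  rw [← t9C_int, coeffMap_t9C]

/-- the rational Hauptmodul of `Γ₀(9)`. -/
def t9 : LaurentSeries ℚ := t9C ℚ

theorem t9C_rat : t9C ℚ = t9 := rfl

/-- **`j t⁹ (t² + 9 t + 27) = (t + 9)³ (t³ + 243 t² + 2187 t + 6561)³` over any coefficient
ring.** -/
theorem jqModC_mul9 :
    jqModC R * (t9C R ^ 9 * (t9C R ^ 2 + 9 * t9C R + 27)) =
      (t9C R + 9) ^ 3 * (t9C R ^ 3 + 243 * t9C R ^ 2 + 2187 * t9C R + 6561) ^ 3 := by
  have h := congrArg (coeffMap (Int.castRingHom R)) j_t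
  simpa only [map_mul, map_pow, map_add, map_ofNat, coeffMap_jqModC, ← t9C_eq_coeffMap] using h

/-- **`j(q³) t³ (t² + 9 t + 27)³ = (t + 9)³ (t³ + 3 t² + 27 t + 81)³` over any coefficient
ring.** -/
theorem jqModC3_mul9 :
    qExpand R 3 (jqModC R) * (t9C R ^ 3 * (t9C R ^ 2 + 9 * t9C R + 27) ^ 3) =
      (t9C R + 9) ^ 3 * (t9C R ^ 3 + 3 * t9C R ^ 2 + 27 * t9C R + 81) ^ 3 := by
  have h := congrArg (coeffMap (Int.castRingHom R)) j3_t
  simpa only [map_mul, map_pow, map_add, map_ofNat, coeffMap_qExpand, coeffMap_jqModC,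
    ← t9C_eq_coeffMap] using h

/-- **`j(q⁹) t (t² + 9 t + 27) = (t + 3)³ (t³ + 9 t² + 27 t + 3)³` over any coefficient ring.** -/
theorem jqModC9_mul9 :
    qExpand R 9 (jqModC R) * (t9C R * (t9C R ^ 2 + 9 * t9C R + 27)) =
      (t9C R + 3) ^ 3 * (t9C R ^ 3 + 9 * t9C R ^ 2 + 27 * t9C R + 3) ^ 3 := by
  have h := congrArg (coeffMap (Int.castRingHom R)) j9_t
  simpa only [map_mul, map_pow, map_add, map_ofNat, coeffMap_qExpand, coeffMap_jqModC,
    ← t9C_eq_coeffMap] using h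

/-- the leading coefficient of `t₉` -/
theorem coeff_t9C_neg_one : (t9C R).coeff (-1 : ℤ) = 1 := by
  rw [t9C, HahnSeries.coeff_single_mul, one_mul, sub_neg_eq_add, neg_add_cancel,
    show (0 : ℤ) = ((0 : ℕ) : ℤ) from rfl, HahnSeries.ofPowerSeries_apply_coeff,
    PowerSeries.coeff_map, PowerSeries.coeff_zero_eq_constantCoeff_apply, constantCoeff_tNum]
  simp

theorem coeff_t9C_of_lt {k : ℤ} (hk : k < -1) : (t9C R).coeff k = 0 := by
  rw [t9C, HahnSeries.coeff_single_mul, one_mul]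
  exact ofPowerSeries_coeff_of_neg _ (by omega)

theorem t9C_ne_zero [Nontrivial R] : t9C R ≠ 0 := fun h => by
  have := coeff_t9C_neg_one R
  rw [h] at this
  simp at this

/-- `t³ = T (t² + 9 t + 27)` with `T` the Hauptmodul of `Γ₀(3)`, over any coefficient ring. -/
theorem t9C_cube :
    t9C R ^ 3 = coeffMap (Int.castRingHom R) TZ * (t9C R ^ 2 + 9 * t9C R + 27) := by
  have h := congrArg (coeffMap (Int.castRingHom R)) t_cube
  simpa only [map_mul, map_pow, map_add, map_ofNat, ← t9C_eq_coeffMap] using h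

/-- the cusp polynomial `t² + 9 t + 27` does not vanish. -/
theorem t9C_quad_ne_zero [IsDomain R] : t9C R ^ 2 + 9 * t9C R + 27 ≠ 0 := fun h => by
  have h3 := t9C_cube R
  rw [h, mul_zero] at h3
  exact t9C_ne_zero R (pow_eq_zero_iff (by norm_num) |>.mp h3)

end Ring

section Field

open IntermediateField

variable (k : Type*) [Field k]

theorem jqModC_mem_adjoin_t9C : jqModC k ∈ k⟮t9C k⟯ := by
  have ht : t9C k ∈ k⟮t9C k⟯ := mem_adjoin_simple_self k (t9C k)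
  have hden : t9C k ^ 9 * (t9C k ^ 2 + 9 * t9C k + 27) ≠ 0 :=
    mul_ne_zero (pow_ne_zero _ (t9C_ne_zero k)) (t9C_quad_ne_zero k)
  have h : jqModC k = (t9C k + 9) ^ 3 * (t9C k ^ 3 + 243 * t9C k ^ 2 + 2187 * t9C k + 6561) ^ 3
      / (t9C k ^ 9 * (t9C k ^ 2 + 9 * t9C k + 27)) := by
    rw [eq_div_iff hden]; exact jqModC_mul9 k
  have h9 : (9 : LaurentSeries k) ∈ k⟮t9C k⟯ := ofNat_mem _ 9
  have h27 : (27 : LaurentSeries k) ∈ k⟮t9C k⟯ := ofNat_mem _ 27
  have h243 : (243 : LaurentSeries k) ∈ k⟮t9C k⟯ := ofNat_mem _ 243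
  have h2187 : (2187 : LaurentSeries k) ∈ k⟮t9C k⟯ := ofNat_mem _ 2187
  have h6561 : (6561 : LaurentSeries k) ∈ k⟮t9C k⟯ := ofNat_mem _ 6561
  rw [h]
  exact div_mem (mul_mem (pow_mem (add_mem ht h9) 3)
    (pow_mem (add_mem (add_mem (add_mem (pow_mem ht 3) (mul_mem h243 (pow_mem ht 2)))
      (mul_mem h2187 ht)) h6561) 3))
    (mul_mem (pow_mem ht 9) (add_mem (add_mem (pow_mem ht 2) (mul_mem h9 ht)) h27))

theorem jqModC3_mem_adjoin_t9C : qExpand k 3 (jqModC k) ∈ k⟮t9C k⟯ := by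
  have ht : t9C k ∈ k⟮t9C k⟯ := mem_adjoin_simple_self k (t9C k)
  have hden : t9C k ^ 3 * (t9C k ^ 2 + 9 * t9C k + 27) ^ 3 ≠ 0 :=
    mul_ne_zero (pow_ne_zero _ (t9C_ne_zero k)) (pow_ne_zero _ (t9C_quad_ne_zero k))
  have h : qExpand k 3 (jqModC k) =
      (t9C k + 9) ^ 3 * (t9C k ^ 3 + 3 * t9C k ^ 2 + 27 * t9C k + 81) ^ 3
      / (t9C k ^ 3 * (t9C k ^ 2 + 9 * t9C k + 27) ^ 3) := by
    rw [eq_div_iff hden]; exact jqModC3_mul9 k
  have h3 : (3 : LaurentSeries k) ∈ k⟮t9C k⟯ := ofNat_mem _ 3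
  have h9 : (9 : LaurentSeries k) ∈ k⟮t9C k⟯ := ofNat_mem _ 9
  have h27 : (27 : LaurentSeries k) ∈ k⟮t9C k⟯ := ofNat_mem _ 27
  have h81 : (81 : LaurentSeries k) ∈ k⟮t9C k⟯ := ofNat_mem _ 81
  rw [h]
  exact div_mem (mul_mem (pow_mem (add_mem ht h9) 3)
    (pow_mem (add_mem (add_mem (add_mem (pow_mem ht 3) (mul_mem h3 (pow_mem ht 2)))
      (mul_mem h27 ht)) h81) 3))
    (mul_mem (pow_mem ht 3) (pow_mem (add_mem (add_mem (pow_mem ht 2) (mul_mem h9 ht)) h27) 3))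

theorem jqModC9_mem_adjoin_t9C : qExpand k 9 (jqModC k) ∈ k⟮t9C k⟯ := by
  have ht : t9C k ∈ k⟮t9C k⟯ := mem_adjoin_simple_self k (t9C k)
  have hden : t9C k * (t9C k ^ 2 + 9 * t9C k + 27) ≠ 0 :=
    mul_ne_zero (t9C_ne_zero k) (t9C_quad_ne_zero k)
  have h : qExpand k 9 (jqModC k) =
      (t9C k + 3) ^ 3 * (t9C k ^ 3 + 9 * t9C k ^ 2 + 27 * t9C k + 3) ^ 3
      / (t9C k * (t9C k ^ 2 + 9 * t9C k + 27)) := by
    rw [eq_div_iff hden]; exact jqModC9_mul9 k
  have h3 : (3 : LaurentSeries k) ∈ k⟮t9C k⟯ := ofNat_mem _ 3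
  have h9 : (9 : LaurentSeries k) ∈ k⟮t9C k⟯ := ofNat_mem _ 9
  have h27 : (27 : LaurentSeries k) ∈ k⟮t9C k⟯ := ofNat_mem _ 27
  rw [h]
  exact div_mem (mul_mem (pow_mem (add_mem ht h3) 3)
    (pow_mem (add_mem (add_mem (add_mem (pow_mem ht 3) (mul_mem h9 (pow_mem ht 2)))
      (mul_mem h27 ht)) h3) 3))
    (mul_mem ht (add_mem (add_mem (pow_mem ht 2) (mul_mem h9 ht)) h27))

/-- **`F_k(9) = k(j̄(q), j̄(q³), j̄(q⁹)) ≤ k(t̄₉)`** for every field `k`. -/
theorem fullC_nine_le_adjoin_t9C : modularFunctionFieldFullC k 9 ≤ k⟮t9C k⟯ := by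
  rw [modularFunctionFieldFullC, adjoin_le_iff]
  rintro x ⟨d, hne, hd, rfl⟩
  have hd9 : d ≤ 9 := Nat.le_of_dvd (by norm_num) hd
  have hd0 : d ≠ 0 := NeZero.ne d
  interval_cases d
  · exact absurd rfl hd0
  · rw [qExpand_one_apply]; exact jqModC_mem_adjoin_t9C k
  · exact absurd hd (by norm_num)
  · exact jqModC3_mem_adjoin_t9C k
  · exact absurd hd (by norm_num)
  · exact absurd hd (by norm_num)
  · exact absurd hd (by norm_num)
  · exact absurd hd (by norm_num)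
  · exact absurd hd (by norm_num)
  · exact jqModC9_mem_adjoin_t9C k

end Field

end

end Fermat.Agent.S18.Haupt9
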