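import Mathlib
import Fermat.Agent.S18.Haupt.DegreeOverT
import Fermat.Agent.S18.Haupt.DegreeRat
import Fermat.Agent.S18.Haupt9.ModC
import Fermat.Agent.S18.Core.ConstOfIntegral
import Fermat.Agent.S18.Gauss.IndepK
import Fermat.Agent.S18.Trans.ConstK

/-!
# S18, block D4-9 (helper21): degrees over the `t`-line at level `9`, and `t₉ ∈ F₉`

(The level-9 twin of `Haupt/Level4Degree.lean`.)

* any field `k` with `3 ≠ 0`: `H³` and `D = X⁹ (X² + 9 X + 27)` are coprime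
  (`H = (X + 9)(X³ + 243 X² + 2187 X + 6561)`), so `[k(t̄) : k(j̄)] = 12` for `t̄ = t9C k`,
  `j̄ = jqModC k` inside `k((q))` (`relfinrank_jbar_tbar`),
  `relfinrank k(j̄) E = 12 * relfinrank k(t̄) E` for `k(t̄) ≤ E`, and `F_{9,k} = k(t̄)` as soon as
  `[F_{9,k} : k(j̄)] = 12`;
* characteristic `ℓ ≠ 3` (any field `k`): unconditionally `F_{9,k} = k(t̄)` and
  `t̄ ∈ F_{9,k} = modularFunctionFieldFullC k 9` (from Igusa/S28 in the form `IndepK.indep_of_char`);
* over `ℚ`: `t9 ∈ modularFunctionFieldFull 9`, `ℚ(t9) = modularFunctionFieldFull 9`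
  (from `DegreeRat.relfinrank_full`), `t9` transcendental.
-/

set_option autoImplicit false
set_option linter.unusedSectionVars false
set_option linter.unusedVariables false

namespace Fermat.Agent.S18.Haupt9.Degree

open Polynomial IntermediateField ModularCurve Fermat.Agent.S18.Haupt9
open Fermat.Agent.S18.Haupt.DegreeOverT

noncomputable section

section Polys

variable (k : Type*) [Field k]

/-- `H = (X + 9)(X³ + 243 X² + 2187 X + 6561)`. -/
def Hp : k[X] := (X + 9) * (X ^ 3 + 243 * X ^ 2 + 2187 * X + 6561)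

/-- the cusp quadratic `X² + 9 X + 27`. -/
def Qp : k[X] := X ^ 2 + 9 * X + 27

/-- the numerator `H³`. -/
def Rn : k[X] := Hp k ^ 3

/-- the denominator `X⁹ (X² + 9 X + 27)`. -/
def Dp : k[X] := X ^ 9 * Qp k

variable {k}

theorem isCoprime_Hp_X (h3 : (3 : k) ≠ 0) : IsCoprime (Hp k) X := by
  have hc : (59049 : k) ≠ 0 := by
    have : (59049 : k) = 3 ^ 10 := by norm_num
    rw [this]
    exact pow_ne_zero _ h3
  refine ⟨C (59049 : k)⁻¹, -(C (59049 : k)⁻¹ * (X ^ 3 + 252 * X ^ 2 + 4374 * X + 26244)), ?_⟩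
  have hC : (C (59049 : k)⁻¹ : k[X]) * 59049 = 1 := by
    rw [show (59049 : k[X]) = C (59049 : k) from (map_ofNat C 59049).symm, ← C_mul,
      inv_mul_cancel₀ hc, C_1]
  rw [Hp]
  linear_combination hC

theorem isCoprime_Hp_Qp (h3 : (3 : k) ≠ 0) : IsCoprime (Hp k) (Qp k) := by
  have hc : (2187 : k) ≠ 0 := by
    have : (2187 : k) = 3 ^ 7 := by norm_num
    rw [this]
    exact pow_ne_zero _ h3
  refine ⟨-(C (2187 : k)⁻¹ * (X + 6)),
    C (2187 : k)⁻¹ * (X ^ 3 + 249 * X ^ 2 + 3618 * X + 13203), ?_⟩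
  have hC : (C (2187 : k)⁻¹ : k[X]) * 2187 = 1 := by
    rw [show (2187 : k[X]) = C (2187 : k) from (map_ofNat C 2187).symm, ← C_mul,
      inv_mul_cancel₀ hc, C_1]
  rw [Hp, Qp]
  linear_combination hC

theorem isCoprime_Rn_Dp (h3 : (3 : k) ≠ 0) : IsCoprime (Rn k) (Dp k) := by
  rw [Rn, Dp]
  exact IsCoprime.pow_left
    (IsCoprime.mul_right (isCoprime_Hp_X h3).pow_right (isCoprime_Hp_Qp h3))

theorem natDegree_Rn : (Rn k).natDegree = 12 := by
  rw [Rn, Hp]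
  compute_degree!

theorem natDegree_Dp : (Dp k).natDegree = 11 := by
  rw [Dp, Qp]
  compute_degree!

theorem Dp_ne_zero : Dp k ≠ 0 := by
  intro h
  have := natDegree_Dp (k := k)
  rw [h, natDegree_zero] at this
  omega

theorem max_deg : max (Rn k).natDegree (Dp k).natDegree = 12 := by
  rw [natDegree_Rn, natDegree_Dp]
  rfl

theorem aeval_Rn {F : Type*} [Field F] [Algebra k F] (t : F) :
    aeval t (Rn k) = ((t + 9) * (t ^ 3 + 243 * t ^ 2 + 2187 * t + 6561)) ^ 3 := by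
  rw [Rn, Hp]
  simp only [map_pow, map_add, map_mul, aeval_X, map_ofNat]

theorem aeval_Dp {F : Type*} [Field F] [Algebra k F] (t : F) :
    aeval t (Dp k) = t ^ 9 * (t ^ 2 + 9 * t + 27) := by
  rw [Dp, Qp]
  simp only [map_pow, map_add, map_mul, aeval_X, map_ofNat]

end Polys

theorem dedekindPsi_nine : dedekindPsi 9 = 12 := by
  have h := index_Gamma0_nine
  rwa [Fermat.Agent.S20.index_Gamma0 9 (by norm_num)] at h

/-! ### any coefficient field with `3 ≠ 0` (in particular characteristic `2`) -/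

section ModL

variable (k : Type*) [Field k]

/-- `t̄ = q⁻¹ + …` is transcendental over `k`. -/
theorem transcendental_t9C : Transcendental k (t9C k) := by
  intro halg
  obtain ⟨c, hc⟩ := Fermat.Agent.S18.Core.ConstOfIntegral.exists_eq_C_of_isAlgebraic halg
  have h1 := coeff_t9C_neg_one k
  rw [hc, HahnSeries.C_apply, HahnSeries.coeff_single_of_ne (by norm_num)] at h1
  exact zero_ne_one h1

theorem rel_t9C : jqModC k * aeval (t9C k) (Dp k) = aeval (t9C k) (Rn k) := by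
  rw [aeval_Dp, aeval_Rn, mul_pow]
  exact jqModC_mul9 k

/-- **`[k(t̄) : k(j̄)] = 12`**. -/
theorem relfinrank_jbar_tbar (h3 : (3 : k) ≠ 0) :
    relfinrank k⟮jqModC k⟯ k⟮t9C k⟯ = 12 := by
  rw [relfinrank_eq (t9C k) (jqModC k) (transcendental_t9C k) (Rn k) (Dp k)
    (isCoprime_Rn_Dp h3) Dp_ne_zero (rel_t9C k), max_deg]

theorem adjoin_jbar_le_adjoin_tbar : k⟮jqModC k⟯ ≤ k⟮t9C k⟯ :=
  adjoin_le_adjoin (t9C k) (jqModC k) (transcendental_t9C k) (Rn k) (Dp k) Dp_ne_zero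
    (rel_t9C k)

/-- degrees over `k(j̄)` are twelve times degrees over `k(t̄)`. -/
theorem relfinrank_eq_twelve_mul (h3 : (3 : k) ≠ 0) (E : IntermediateField k (LaurentSeries k))
    (hE : k⟮t9C k⟯ ≤ E) :
    relfinrank k⟮jqModC k⟯ E = 12 * relfinrank k⟮t9C k⟯ E := by
  rw [← relfinrank_jbar_tbar k h3]
  exact (relfinrank_mul_relfinrank (adjoin_jbar_le_adjoin_tbar k) hE).symm

theorem adjoin_jbar_le_fullC : k⟮jqModC k⟯ ≤ modularFunctionFieldFullC k 9 := by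
  rw [adjoin_simple_le_iff]
  exact jqModC_mem_full k 9

/-- **`F_{9,k} = k(t̄)`** as soon as `[F_{9,k} : k(j̄)] = 12 = ψ(9)`. -/
theorem fullC_nine_eq_adjoin (h3 : (3 : k) ≠ 0)
    (hdeg : relfinrank k⟮jqModC k⟯ (modularFunctionFieldFullC k 9) = 12) :
    modularFunctionFieldFullC k 9 = k⟮t9C k⟯ :=
  eq_adjoin_of_relfinrank (t9C k) (jqModC k) (transcendental_t9C k) (Rn k) (Dp k)
    (isCoprime_Rn_Dp h3) Dp_ne_zero (rel_t9C k) (by rw [max_deg]; norm_num)
    (modularFunctionFieldFullC k 9) (adjoin_jbar_le_fullC k) (fullC_nine_le_adjoin_t9C k)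
    (by rw [max_deg]; exact hdeg)

/-- the same with only the lower bound `12 ≤ [F_{9,k} : k(j̄)]`. -/
theorem fullC_nine_eq_adjoin_of_le (h3 : (3 : k) ≠ 0)
    (hdeg : 12 ≤ relfinrank k⟮jqModC k⟯ (modularFunctionFieldFullC k 9)) :
    modularFunctionFieldFullC k 9 = k⟮t9C k⟯ := by
  apply fullC_nine_eq_adjoin k h3
  have h := relfinrank_mul_relfinrank (adjoin_jbar_le_fullC k) (fullC_nine_le_adjoin_t9C k)
  rw [relfinrank_jbar_tbar k h3] at h
  have h1 : relfinrank k⟮jqModC k⟯ (modularFunctionFieldFullC k 9) ∣ 12 := Dvd.intro _ h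
  exact le_antisymm (Nat.le_of_dvd (by norm_num) h1) hdeg

end ModL

/-! ### characteristic `ℓ ≠ 3`: the degree from Igusa's theorem (S28) -/

section CharL

variable (ℓ : ℕ) [Fact ℓ.Prime] (k : Type*) [Field k] [CharP k ℓ]

theorem three_ne_zero_of_char (hℓ : ℓ ≠ 3) : (3 : k) ≠ 0 := by
  intro h
  have h1 : ((3 : ℕ) : k) = 0 := by exact_mod_cast h
  rw [CharP.cast_eq_zero_iff k ℓ] at h1
  have := (Nat.prime_dvd_prime_iff_eq (Fact.out : ℓ.Prime) Nat.prime_three).mp h1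
  exact hℓ this

theorem not_dvd_nine (hℓ : ℓ ≠ 3) : ¬ ℓ ∣ 9 := by
  intro h
  have h1 : ℓ ∣ 3 ^ 2 := by simpa using h
  have := (Nat.prime_dvd_prime_iff_eq (Fact.out : ℓ.Prime) Nat.prime_three).mp
    ((Fact.out : ℓ.Prime).dvd_of_dvd_pow h1)
  exact hℓ this

/-- `1, j̄₉, …, j̄₉¹¹` are linearly independent over `k(j̄)`. -/
theorem linearIndependent_pow_jbar9 (hℓ : ℓ ≠ 3) :
    LinearIndependent ↥k⟮jqModC k⟯
      (fun i : Fin (dedekindPsi 9) => (jqNModC k 9) ^ (i : ℕ)) := by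
  classical
  rw [Fermat.Agent.S28.RegDegree.linearIndependent_adjoin_iff_polyIndep k (jqModC k)
    (Fermat.Agent.S18.Trans.transcendental_jqModC k)]
  intro t g hg i hi
  have h := Fermat.Agent.S18.Gauss.IndepK.indep_of_char 9 ℓ k (not_dvd_nine ℓ hℓ)
    (fun i => if i ∈ t then g i else 0) ?_ i
  · simpa [hi] using h
  · rw [← hg, ← Finset.sum_filter_add_sum_filter_not Finset.univ (· ∈ t)]
    have h2 : ∑ x ∈ Finset.univ.filter (fun x => ¬ x ∈ t),
        aeval (jqModC k) (if x ∈ t then g x else 0) * jqNModC k 9 ^ (x : ℕ) = 0 := by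
      refine Finset.sum_eq_zero fun x hx => ?_
      rw [if_neg (Finset.mem_filter.mp hx).2, map_zero, zero_mul]
    rw [h2, add_zero]
    have h3 : Finset.univ.filter (· ∈ t) = t := by
      ext x; simp
    rw [h3]
    refine Finset.sum_congr rfl fun x hx => ?_
    rw [if_pos hx]

/-- **`12 ≤ [F_{9,k} : k(j̄)]`** in characteristic `ℓ ≠ 3`. -/
theorem twelve_le_relfinrank (hℓ : ℓ ≠ 3) :
    12 ≤ relfinrank k⟮jqModC k⟯ (modularFunctionFieldFullC k 9) := by
  have h3 := three_ne_zero_of_char ℓ k hℓ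
  -- `F_{9,k}` is finite over `k(j̄)` since `k(t̄)` is
  have hle := adjoin_jbar_le_fullC k
  have hfinT : FiniteDimensional ↥k⟮jqModC k⟯ ↥(extendScalars (adjoin_jbar_le_adjoin_tbar k)) := by
    apply FiniteDimensional.of_finrank_pos
    rw [← relfinrank_eq_finrank_of_le (adjoin_jbar_le_adjoin_tbar k), relfinrank_jbar_tbar k h3]
    norm_num
  have hfinE : FiniteDimensional ↥k⟮jqModC k⟯ ↥(extendScalars hle) := by
    have hEt : extendScalars hle ≤ extendScalars (adjoin_jbar_le_adjoin_tbar k) :=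
      fun x hx => fullC_nine_le_adjoin_t9C k hx
    exact FiniteDimensional.of_injective (IntermediateField.inclusion hEt).toLinearMap
      (IntermediateField.inclusion hEt).injective
  rw [relfinrank_eq_finrank_of_le hle]
  have hmem : ∀ i : Fin (dedekindPsi 9), (jqNModC k 9) ^ (i : ℕ) ∈ extendScalars hle := fun i =>
    pow_mem (show jqNModC k 9 ∈ modularFunctionFieldFullC k 9 from
      jqModCd_mem_full k 9 dvd_rfl) _
  have hv : LinearIndependent ↥k⟮jqModC k⟯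
      (fun i : Fin (dedekindPsi 9) =>
        (⟨(jqNModC k 9) ^ (i : ℕ), hmem i⟩ : ↥(extendScalars hle))) := by
    apply LinearIndependent.of_comp (extendScalars hle).val.toLinearMap
    exact linearIndependent_pow_jbar9 ℓ k hℓ
  have := hv.fintype_card_le_finrank
  simpa [dedekindPsi_nine] using this

/-- **`F_{9,k} = k(t̄)`** unconditionally in characteristic `ℓ ≠ 3`. -/
theorem fullC_nine_eq_adjoin_of_char (hℓ : ℓ ≠ 3) :
    modularFunctionFieldFullC k 9 = k⟮t9C k⟯ :=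
  fullC_nine_eq_adjoin_of_le k (three_ne_zero_of_char ℓ k hℓ) (twelve_le_relfinrank ℓ k hℓ)

/-- **`t̄ ∈ F_{9,k}`** in characteristic `ℓ ≠ 3`. -/
theorem t9C_mem_fullC (hℓ : ℓ ≠ 3) : t9C k ∈ modularFunctionFieldFullC k 9 := by
  rw [fullC_nine_eq_adjoin_of_char ℓ k hℓ]
  exact mem_adjoin_simple_self k (t9C k)

/-- **`[F_{9,k} : k(j̄)] = 12`** in characteristic `ℓ ≠ 3`. -/
theorem relfinrank_fullC_nine (hℓ : ℓ ≠ 3) :
    relfinrank k⟮jqModC k⟯ (modularFunctionFieldFullC k 9) = 12 := by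
  rw [fullC_nine_eq_adjoin_of_char ℓ k hℓ, relfinrank_jbar_tbar k (three_ne_zero_of_char ℓ k hℓ)]

end CharL

/-! ### over `ℚ` -/

section Rat

theorem rel_t9 : jq * aeval t9 (Dp ℚ) = aeval t9 (Rn ℚ) := rel_t9C ℚ

theorem transcendental_t9 : Transcendental ℚ t9 := transcendental_t9C ℚ

theorem full_nine_le_adjoin_t9 : modularFunctionFieldFull 9 ≤ ℚ⟮t9⟯ :=
  fullC_nine_le_adjoin_t9C ℚ

/-- **`ℚ(t₉) = ℚ(j(q), j(q³), j(q⁹))`**: `t₉` is a Hauptmodul. -/
theorem adjoin_t9 : ℚ⟮t9⟯ = modularFunctionFieldFull 9 := by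
  symm
  refine eq_adjoin_of_relfinrank t9 jq transcendental_t9 (Rn ℚ) (Dp ℚ)
    (isCoprime_Rn_Dp (by norm_num)) Dp_ne_zero rel_t9 (by rw [max_deg]; norm_num)
    (modularFunctionFieldFull 9) (Fermat.Agent.S28.RegDegree.adjoin_jq_le_full' 9)
    full_nine_le_adjoin_t9 ?_
  rw [max_deg, Fermat.Agent.S18.Haupt.DegreeRat.relfinrank_full, dedekindPsi_nine]

/-- **`t₉ ∈ F₉ = modularFunctionFieldFull 9`.** -/
theorem t9_mem_full : t9 ∈ modularFunctionFieldFull 9 := by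
  rw [← adjoin_t9]
  exact mem_adjoin_simple_self ℚ t9

/-- `j t⁹ (t² + 9 t + 27) = ((t + 9)(t³ + 243 t² + 2187 t + 6561))³` in the shape of (D5). -/
theorem jq_mul9' : jq * t9 ^ 9 * (t9 ^ 2 + 9 * t9 + 27)
    = ((t9 + 9) * (t9 ^ 3 + 243 * t9 ^ 2 + 2187 * t9 + 6561)) ^ 3 := by
  rw [mul_assoc, mul_pow]
  exact jqModC_mul9 ℚ

theorem jq3_mul9 : qExpand ℚ 3 jq * (t9 ^ 3 * (t9 ^ 2 + 9 * t9 + 27) ^ 3) =
    (t9 + 9) ^ 3 * (t9 ^ 3 + 3 * t9 ^ 2 + 27 * t9 + 81) ^ 3 := jqModC3_mul9 ℚ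

theorem jq9_mul9 : qExpand ℚ 9 jq * (t9 * (t9 ^ 2 + 9 * t9 + 27)) =
    (t9 + 3) ^ 3 * (t9 ^ 3 + 9 * t9 ^ 2 + 27 * t9 + 3) ^ 3 := jqModC9_mul9 ℚ

end Rat

end

end Fermat.Agent.S18.Haupt9.Degree
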