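/-
S18, block D, glue (D4-9) ↔ (D5) (helper21): the Hauptmodul `t₉` of `Γ₀(9)` as an element of
`FF M = modularFunctionFieldBar M` (`9 ∣ M`), its relations with `J`, `J₃`, `J₉`, the unconditional
form of helper4's (D5): `FF M / K(t₉)` is unramified outside `t₉ = ∞, 0` and the two roots of
`t² + 9 t + 27`, and the degree `ψ(M) = 12 * [FF M : K(t₉)]`.
(The level-9 twin of `Haupt/Level4D5.lean` and of the characteristic-zero part of
`Haupt/Level4Degree.lean`.)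
-/
import Mathlib
import Fermat.Agent.S18.Haupt9.Degree
import Fermat.Agent.S18.NoElliptic.Transport
import Fermat.Agent.S24.FiniteFibres

set_option autoImplicit false
set_option linter.unusedSectionVars false
set_option linter.unusedVariables false

namespace Fermat.Agent.S18.Haupt9

open AlgebraicCurve ModularCurve Polynomial IntermediateField
  Fermat.Agent.S24 Fermat.Agent.S24.BridgeInv
  Fermat.Agent.S24.PlaceAt Fermat.Agent.S24.FiniteFibres Fermat.Agent.S18.NoElliptic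
  Fermat.Agent.S18.Haupt9.Degree Fermat.Agent.S18.Haupt.DegreeOverT

noncomputable section

variable (M : ℕ) [NeZero M]

/-- `t₉` as an element of `FF M`, `9 ∣ M`. -/
def t9Bar (h9 : 9 ∣ M) : FF M := ratT M t9 (mem_full_of_dvd M h9 t9_mem_full)

@[simp] theorem coe_t9Bar (h9 : 9 ∣ M) :
    ((t9Bar M h9 : FF M) : LaurentSeries Kbar) = coeffEmb Kbar t9 := rfl

theorem coe_t9Bar_eq (h9 : 9 ∣ M) : ((t9Bar M h9 : FF M) : LaurentSeries Kbar) = t9C Kbar := by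
  rw [coe_t9Bar, ← t9C_rat, coeffEmb, coeffMap_t9C]

/-- **`J t⁹ (t² + 9 t + 27) = ((t + 9)(t³ + 243 t² + 2187 t + 6561))³` in `FF M`.** -/
theorem J_mul_t9Bar (h9 : 9 ∣ M) :
    J M * t9Bar M h9 ^ 9 * (t9Bar M h9 ^ 2 + 9 * t9Bar M h9 + 27) =
      ((t9Bar M h9 + 9) *
        (t9Bar M h9 ^ 3 + 243 * t9Bar M h9 ^ 2 + 2187 * t9Bar M h9 + 6561)) ^ 3 := by
  apply Subtype.ext
  have h := congrArg (coeffEmb Kbar) jq_mul9'
  simp only [map_mul, map_pow, map_add, map_ofNat] at h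
  have hJ : ((J M : FF M) : LaurentSeries Kbar) = coeffEmb Kbar jq := by
    show coeffEmb Kbar (qExpand ℚ 1 jq) = coeffEmb Kbar jq
    rw [qExpand_one_apply]
  push_cast
  rw [hJ, coe_t9Bar]
  exact h

/-- **`J₃ t³ (t² + 9 t + 27)³ = (t + 9)³ (t³ + 3 t² + 27 t + 81)³` in `FF M`.** -/
theorem J3_mul_t9Bar (h9 : 9 ∣ M) :
    Jd M 3 (dvd_trans (by norm_num) h9) *
        (t9Bar M h9 ^ 3 * (t9Bar M h9 ^ 2 + 9 * t9Bar M h9 + 27) ^ 3) =
      (t9Bar M h9 + 9) ^ 3 *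
        (t9Bar M h9 ^ 3 + 3 * t9Bar M h9 ^ 2 + 27 * t9Bar M h9 + 81) ^ 3 := by
  apply Subtype.ext
  have h := congrArg (coeffEmb Kbar) jq3_mul9
  simp only [map_mul, map_pow, map_add, map_ofNat] at h
  push_cast
  rw [coe_Jd, coe_t9Bar]
  exact h

/-- **`J₉ t (t² + 9 t + 27) = (t + 3)³ (t³ + 9 t² + 27 t + 3)³` in `FF M`.** -/
theorem J9_mul_t9Bar (h9 : 9 ∣ M) :
    Jd M 9 h9 * (t9Bar M h9 * (t9Bar M h9 ^ 2 + 9 * t9Bar M h9 + 27)) =
      (t9Bar M h9 + 3) ^ 3 *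
        (t9Bar M h9 ^ 3 + 9 * t9Bar M h9 ^ 2 + 27 * t9Bar M h9 + 3) ^ 3 := by
  apply Subtype.ext
  have h := congrArg (coeffEmb Kbar) jq9_mul9
  simp only [map_mul, map_pow, map_add, map_ofNat] at h
  push_cast
  rw [coe_Jd, coe_t9Bar]
  exact h

/-- **(D5) at level `9 ∣ M`, unconditionally**: every place of `FF M` over a value `t₀` of the
Hauptmodul `t₉` with `t₀ (t₀² + 9 t₀ + 27) ≠ 0` is unramified over the `t₉`-line. -/
theorem ord_t9Bar_sub_eq_one (h9 : 9 ∣ M) (v : Place Kbar (FF M)) (t0 : Kbar) (h0 : t0 ≠ 0)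
    (h27 : t0 ^ 2 + 9 * t0 + 27 ≠ 0)
    (hv : 0 < v.ord (t9Bar M h9 - algebraMap Kbar (FF M) t0)) :
    v.ord (t9Bar M h9 - algebraMap Kbar (FF M) t0) = 1 :=
  ord_sub_eq_one_of_rat_nine M h9 t9 t9_mem_full jq_mul9' v t0 h0 h27 hv

/-! ### the degree of `FF M` over `K(t₉)` -/

theorem transcendental_t9Bar (h9 : 9 ∣ M) : Transcendental Kbar (t9Bar M h9) := by
  intro halg
  apply transcendental_t9C Kbar
  have := halg.algebraMap (A := LaurentSeries Kbar)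
  rw [← coe_t9Bar_eq M h9]
  exact this

theorem rel_t9Bar (h9 : 9 ∣ M) :
    J M * aeval (t9Bar M h9) (Dp Kbar) = aeval (t9Bar M h9) (Rn Kbar) := by
  rw [aeval_Dp, aeval_Rn, ← mul_assoc]
  exact J_mul_t9Bar M h9

/-- `K(J) ≤ K(t)` inside `FF M`. -/
theorem adjoin_J_le_adjoin_t9Bar (h9 : 9 ∣ M) : Kbar⟮J M⟯ ≤ Kbar⟮t9Bar M h9⟯ :=
  adjoin_le_adjoin (t9Bar M h9) (J M) (transcendental_t9Bar M h9) (Rn Kbar) (Dp Kbar) Dp_ne_zero
    (rel_t9Bar M h9)

/-- **`[FF M : K(J)] = 12 * [FF M : K(t)]`**. -/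
theorem finrank_J_eq_twelve_mul (h9 : 9 ∣ M) :
    Module.finrank Kbar⟮J M⟯ (FF M) = 12 * Module.finrank Kbar⟮t9Bar M h9⟯ (FF M) := by
  rw [finrank_eq_mul (t9Bar M h9) (J M) (transcendental_t9Bar M h9) (Rn Kbar) (Dp Kbar)
    (isCoprime_Rn_Dp three_ne_zero) Dp_ne_zero (rel_t9Bar M h9), max_deg]

/-- **`ψ(M) = 12 * [FF M : K(t)]`**. -/
theorem psi_eq_twelve_mul (h9 : 9 ∣ M) :
    dedekindPsi M = 12 * Module.finrank Kbar⟮t9Bar M h9⟯ (FF M) := by
  rw [← finrank_J_eq_twelve_mul, T0 M]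

/-- `FF M` is finite over `K(t)`. -/
theorem finiteDimensional_t9Bar (h9 : 9 ∣ M) : FiniteDimensional Kbar⟮t9Bar M h9⟯ (FF M) := by
  apply FiniteDimensional.of_finrank_pos
  have h := psi_eq_twelve_mul M h9
  have hpos : 0 < dedekindPsi M := by
    rw [← T0 M]
    exact Module.finrank_pos
  omega

end

end Fermat.Agent.S18.Haupt9
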