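/-
S18, block D4-9 (helper21): the cusp-value ramification of the `t₉`-line, unconditional.
Instantiation of helper4's `NoElliptic/Level9Glue.lean` at the landed Hauptmodul
`t9 = t9C ℚ` (`Degree.t9_mem_full`, `jqModC_mul9 ℚ`, `coeff_t9C_neg_one ℚ`), stated for
`Haupt9.t9Bar M h9 : FF M`, `9 ∣ M`.
-/
import Mathlib
import Fermat.Agent.S18.Haupt9.D5
import Fermat.Agent.S18.NoElliptic.Level9Glue

set_option autoImplicit false
set_option linter.unusedSectionVars false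
set_option linter.unusedVariables false

namespace Fermat.Agent.S18.Haupt9

open AlgebraicCurve ModularCurve Polynomial IntermediateField
  Fermat.Agent.S24 Fermat.Agent.S24.BridgeInv
  Fermat.Agent.S24.PlaceAt Fermat.Agent.S18.NoElliptic
  Fermat.Agent.S18.Haupt9.Degree

noncomputable section

/-- the three hypotheses of `Level9Glue` at `t9`. -/
theorem hj_t9 : jq * (t9 ^ 9 * (t9 ^ 2 + 9 * t9 + 27))
    = (t9 + 9) ^ 3 * (t9 ^ 3 + 243 * t9 ^ 2 + 2187 * t9 + 6561) ^ 3 := jqModC_mul9 ℚ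

theorem hpole_t9 : t9.coeff (-1) ≠ 0 := by
  rw [← t9C_rat, coeff_t9C_neg_one]
  exact one_ne_zero

variable (M : ℕ) [NeZero M] (h9 : 9 ∣ M)

/-- `Haupt9.t9Bar` is helper4's `Level9G.t9Bar` at `t9`. -/
theorem t9Bar_eq_glue : t9Bar M h9 = Level9G.t9Bar M h9 t9 t9_mem_full := rfl

/-- at a pole of `t₉` (the cusp value `∞` of the `t`-line) the pole order divides `M`. -/
theorem ord_t9Bar_dvd_of_neg (v : Place Kbar (FF M)) (hv : v.ord (t9Bar M h9) < 0) :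
    v.ord (t9Bar M h9) ∣ (M : ℤ) :=
  Level9G.ord_t9Bar_dvd_of_neg M h9 t9 t9_mem_full hj_t9 v hv

/-- at a zero of `t₉` (cusp value `0`): `9 * ord_v t ∣ M`. -/
theorem nine_mul_ord_t9Bar_dvd_of_pos (v : Place Kbar (FF M)) (hv : 0 < v.ord (t9Bar M h9)) :
    9 * v.ord (t9Bar M h9) ∣ (M : ℤ) :=
  Level9G.nine_mul_ord_t9Bar_dvd_of_pos M h9 t9 t9_mem_full hj_t9 v hv

theorem ord_t9Bar_dvd_of_pos (v : Place Kbar (FF M)) (hv : 0 < v.ord (t9Bar M h9)) :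
    v.ord (t9Bar M h9) ∣ (M : ℤ) :=
  Level9G.ord_t9Bar_dvd_of_pos M h9 t9 t9_mem_full hj_t9 v hv

/-- at a zero of `t₉ - ρ`, `ρ` a root of `X² + 9 X + 27` (the two other finite cusp values):
`ord_v (t - ρ) ∣ M`. -/
theorem ord_t9Bar_sub_root_dvd_of_pos (ρ : Kbar) (hρ : ρ ^ 2 + 9 * ρ + 27 = 0)
    (v : Place Kbar (FF M))
    (hv : 0 < v.ord (t9Bar M h9 - algebraMap Kbar (FF M) ρ)) :
    v.ord (t9Bar M h9 - algebraMap Kbar (FF M) ρ) ∣ (M : ℤ) :=
  Level9G.ord_t9Bar_sub_root_dvd_of_pos M h9 t9 t9_mem_full hj_t9 ρ hρ v hv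

end

end Fermat.Agent.S18.Haupt9
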