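import Mathlib
import Fermat.Agent.S18.Haupt9.Degree
import Fermat.Agent.S18.Haupt.Level9GaussFinal
import Fermat.Agent.S18.Gauss.Concrete
import Fermat.Agent.S18.Gauss.Separable

/-!
# S18, block D4-9 / INST (helper21): the degree data of the `t₉`-line on the concrete fields

Level `9 ∣ M`.

* characteristic zero, any field `L ⊇ ℚ`: `FL := laurentBaseChange L (modularFunctionFieldFull M)`,
  `t9FL L M h9 : FL` (the series `t9C L`), `J = Jel (Fermat.Agent.S18.Gauss.Concrete.jqModC_mem L M)`: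
  `L(J) ≤ L(t)`, `t` transcendental, **`12 * [FL : L(t)] = ψ(M)`**, `FL / L(t)` finite;
* characteristic `ℓ ≠ 3`, any field `k`: `E := modularFunctionFieldFullC k M`,
  `t9E ℓ k M h9 hℓ : E` (the series `t9C k`), `j̄ = jBar k M`:
  `k(j̄) ≤ k(t̄)`, `[E : k(j̄)] = 12 * [E : k(t̄)]`, hence **`12 * [E : k(t̄)] = ψ(M)`** as soon as
  `[E : k(j̄)] = ψ(M)` (helper18's `Concrete.finrank_full`), `E / k(t̄)` finite and separable
  for `ℓ ∤ M`.
-/

set_option autoImplicit false
set_option linter.unusedSectionVars false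
set_option linter.unusedVariables false

namespace Fermat.Agent.S18.Haupt9.DegreeFL

open Polynomial IntermediateField ModularCurve Fermat.Agent.S18.Haupt9
open Fermat.Agent.S18.Haupt9.Degree Fermat.Agent.S18.Haupt.DegreeOverT
open Fermat.Agent.S18.Gauss.Residue Fermat.Agent.S18.Gauss.Concrete

noncomputable section

/-! ### characteristic zero -/

section CharZero

variable (L : Type*) [Field L] [Algebra ℚ L] (M : ℕ) [NeZero M] (h9 : 9 ∣ M)

/-- `t₉` as an element of `FL = F_M ⊗ L`. -/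
def t9FL : ↥(laurentBaseChange L (modularFunctionFieldFull M)) :=
  ⟨t9C L, Fermat.Agent.S18.Haupt.Level9Final.t9C_mem_laurentBaseChange L M h9⟩

@[simp] theorem coe_t9FL :
    ((t9FL L M h9 : ↥(laurentBaseChange L (modularFunctionFieldFull M))) : LaurentSeries L)
      = t9C L := rfl

theorem transcendental_t9FL : Transcendental L (t9FL L M h9) := by
  intro halg
  apply transcendental_t9C L
  have := halg.algebraMap (A := LaurentSeries L)
  exact this

theorem rel_t9FL :
    Jel (Fermat.Agent.S18.Gauss.Concrete.jqModC_mem L M) * aeval (t9FL L M h9) (Dp L) = aeval (t9FL L M h9) (Rn L) := by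
  rw [aeval_Dp, aeval_Rn, mul_pow]
  apply Subtype.ext
  push_cast
  exact jqModC_mul9 L

/-- `L(J) ≤ L(t)` inside `FL`. -/
theorem adjoin_Jel_le_adjoin_t9FL : L⟮Jel (Fermat.Agent.S18.Gauss.Concrete.jqModC_mem L M)⟯ ≤ L⟮t9FL L M h9⟯ :=
  adjoin_le_adjoin (t9FL L M h9) (Jel (Fermat.Agent.S18.Gauss.Concrete.jqModC_mem L M)) (transcendental_t9FL L M h9)
    (Rn L) (Dp L) Dp_ne_zero (rel_t9FL L M h9)

variable [CharZero L]

theorem three_ne_zero' : (3 : L) ≠ 0 := by norm_num

/-- **`[FL : L(J)] = 12 * [FL : L(t)]`**. -/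
theorem finrank_Jel_eq_twelve_mul :
    Module.finrank L⟮Jel (Fermat.Agent.S18.Gauss.Concrete.jqModC_mem L M)⟯ ↥(laurentBaseChange L (modularFunctionFieldFull M))
      = 12 * Module.finrank L⟮t9FL L M h9⟯
        ↥(laurentBaseChange L (modularFunctionFieldFull M)) := by
  rw [finrank_eq_mul (t9FL L M h9) (Jel (Fermat.Agent.S18.Gauss.Concrete.jqModC_mem L M)) (transcendental_t9FL L M h9)
    (Rn L) (Dp L) (isCoprime_Rn_Dp (three_ne_zero' L)) Dp_ne_zero (rel_t9FL L M h9), max_deg]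

/-- **`12 * [FL : L(t)] = ψ(M)`**. -/
theorem twelve_mul_finrank :
    12 * Module.finrank L⟮t9FL L M h9⟯ ↥(laurentBaseChange L (modularFunctionFieldFull M))
      = dedekindPsi M := by
  rw [← finrank_Jel_eq_twelve_mul, finrank_eq_psi]

theorem dedekindPsi_pos' : 0 < dedekindPsi M := by
  rw [← finrank_eq_psi ℚ M]
  have := Fermat.Agent.S18.Gauss.Concrete.finiteDimensional ℚ M
  exact Module.finrank_pos

/-- `FL` is finite over `L(t)`. -/
theorem finiteDimensional_t9FL :
    FiniteDimensional L⟮t9FL L M h9⟯ ↥(laurentBaseChange L (modularFunctionFieldFull M)) := by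
  apply FiniteDimensional.of_finrank_pos
  have h := twelve_mul_finrank L M h9
  have hpos := dedekindPsi_pos' M
  omega

end CharZero

/-! ### characteristic `ℓ ≠ 3` -/

section CharL

variable (ℓ : ℕ) [Fact ℓ.Prime] (k : Type*) [Field k] [CharP k ℓ] (M : ℕ) [NeZero M]
  (h9 : 9 ∣ M) (hℓ : ℓ ≠ 3)

/-- `t̄₉` as an element of `E = F_{M,k}`. -/
def t9E : ↥(modularFunctionFieldFullC k M) :=
  ⟨t9C k, full_degeneracyC_le k h9 (t9C_mem_fullC ℓ k hℓ)⟩

@[simp] theorem coe_t9E :
    ((t9E ℓ k M h9 hℓ : ↥(modularFunctionFieldFullC k M)) : LaurentSeries k) = t9C k := rfl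

theorem transcendental_t9E : Transcendental k (t9E ℓ k M h9 hℓ) := by
  intro halg
  apply transcendental_t9C k
  have := halg.algebraMap (A := LaurentSeries k)
  exact this

theorem rel_t9E :
    Fermat.Agent.S18.Trans.jBar k M * aeval (t9E ℓ k M h9 hℓ) (Dp k)
      = aeval (t9E ℓ k M h9 hℓ) (Rn k) := by
  rw [aeval_Dp, aeval_Rn, mul_pow]
  apply Subtype.ext
  push_cast
  exact jqModC_mul9 k

/-- `k(j̄) ≤ k(t̄)` inside `E`. -/
theorem adjoin_jBar_le_adjoin_t9E :
    (k⟮Fermat.Agent.S18.Trans.jBar k M⟯ : IntermediateField k (modularFunctionFieldFullC k M))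
      ≤ k⟮t9E ℓ k M h9 hℓ⟯ :=
  adjoin_le_adjoin (t9E ℓ k M h9 hℓ) (Fermat.Agent.S18.Trans.jBar k M)
    (transcendental_t9E ℓ k M h9 hℓ) (Rn k) (Dp k) Dp_ne_zero (rel_t9E ℓ k M h9 hℓ)

/-- **`[E : k(j̄)] = 12 * [E : k(t̄)]`**. -/
theorem finrank_jBar_eq_twelve_mul :
    Module.finrank
      (k⟮Fermat.Agent.S18.Trans.jBar k M⟯ : IntermediateField k (modularFunctionFieldFullC k M))
      ↥(modularFunctionFieldFullC k M)
      = 12 * Module.finrank k⟮t9E ℓ k M h9 hℓ⟯ ↥(modularFunctionFieldFullC k M) := by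
  rw [finrank_eq_mul (t9E ℓ k M h9 hℓ) (Fermat.Agent.S18.Trans.jBar k M)
    (transcendental_t9E ℓ k M h9 hℓ) (Rn k) (Dp k)
    (isCoprime_Rn_Dp (three_ne_zero_of_char ℓ k hℓ)) Dp_ne_zero (rel_t9E ℓ k M h9 hℓ), max_deg]

/-- **`12 * [E : k(t̄)] = ψ(M)`** from `[E : k(j̄)] = ψ(M)` (`Concrete.finrank_full`). -/
theorem twelve_mul_finrank_res
    (hfull : Module.finrank
      (k⟮Fermat.Agent.S18.Trans.jBar k M⟯ : IntermediateField k (modularFunctionFieldFullC k M))
      ↥(modularFunctionFieldFullC k M) = dedekindPsi M) :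
    12 * Module.finrank k⟮t9E ℓ k M h9 hℓ⟯ ↥(modularFunctionFieldFullC k M) = dedekindPsi M := by
  rw [← finrank_jBar_eq_twelve_mul, hfull]

/-- `E` is finite over `k(t̄)` (`ℓ ∤ M`). -/
theorem finiteDimensional_t9E (hℓM : ¬ ℓ ∣ M) :
    FiniteDimensional k⟮t9E ℓ k M h9 hℓ⟯ ↥(modularFunctionFieldFullC k M) := by
  have h1 := Fermat.Agent.S18.Gauss.Separable.finiteDimensional_full (k := k) (N := M) hℓM
  apply FiniteDimensional.of_finrank_pos
  have h := finrank_jBar_eq_twelve_mul ℓ k M h9 hℓ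
  have hpos : 0 < Module.finrank
      (k⟮Fermat.Agent.S18.Trans.jBar k M⟯ : IntermediateField k (modularFunctionFieldFullC k M))
      ↥(modularFunctionFieldFullC k M) := Module.finrank_pos
  omega

set_option synthInstance.maxHeartbeats 200000 in
/-- `E` is separable over `k(t̄)` (`ℓ ∤ M`). -/
theorem isSeparable_t9E (hℓM : ¬ ℓ ∣ M) :
    Algebra.IsSeparable k⟮t9E ℓ k M h9 hℓ⟯ ↥(modularFunctionFieldFullC k M) := by
  have h1 := Fermat.Agent.S18.Gauss.Separable.isSeparable_full (k := k) (N := M) hℓM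
  have h2 : Algebra.IsSeparable ↥(extendScalars (adjoin_jBar_le_adjoin_t9E ℓ k M h9 hℓ))
      ↥(modularFunctionFieldFullC k M) :=
    Algebra.isSeparable_tower_top_of_isSeparable
      (k⟮Fermat.Agent.S18.Trans.jBar k M⟯ :
        IntermediateField k (modularFunctionFieldFullC k M)) _ _
  exact h2

end CharL

end

end Fermat.Agent.S18.Haupt9.DegreeFL
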