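import Mathlib

set_option autoImplicit false

/-!
# S18, block D4 (level 9): truncated arithmetic of integral power series

A small verified "calculator": `Approx n P a` says that the first `n` coefficients of the integral
power series `P` are the entries of the list `a` (entries beyond the end count as `0`).  The
operations `addL`, `subL`, `smulL`, `mulL`, `expandL` on lists are computable, so that a coefficient
identity is reduced to a closed `List ℤ` computation (`decide`).
-/

namespace Fermat.Agent.S18.Haupt9.Trunc

open PowerSeries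

/-- the table `[f 0, …, f (n-1)]` -/
def tab (n : ℕ) (f : ℕ → ℤ) : List ℤ := (List.range n).map f

theorem getD_tab {n : ℕ} (f : ℕ → ℤ) {i : ℕ} (hi : i < n) : (tab n f).getD i 0 = f i := by
  simp [tab, List.getD_eq_getElem?_getD, hi]

/-- `Approx n P a`: the first `n` coefficients of `P` are given by the list `a`. -/
def Approx (n : ℕ) (P : PowerSeries ℤ) (a : List ℤ) : Prop :=
  ∀ i, i < n → coeff i P = a.getD i 0

def oneL (n : ℕ) : List ℤ := tab n fun i => if i = 0 then 1 else 0

def addL (n : ℕ) (a b : List ℤ) : List ℤ := tab n fun i => a.getD i 0 + b.getD i 0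

def subL (n : ℕ) (a b : List ℤ) : List ℤ := tab n fun i => a.getD i 0 - b.getD i 0

def smulL (n : ℕ) (c : ℤ) (a : List ℤ) : List ℤ := tab n fun i => c * a.getD i 0

def mulL (n : ℕ) (a b : List ℤ) : List ℤ :=
  tab n fun k => ((List.range (k + 1)).map fun i => a.getD i 0 * b.getD (k - i) 0).sum

/-- the list of `P(q^d)` -/
def expandL (d n : ℕ) (a : List ℤ) : List ℤ :=
  tab n fun i => if i % d = 0 then a.getD (i / d) 0 else 0

/-- multiplication by `q` -/
def shiftL (n : ℕ) (a : List ℤ) : List ℤ :=
  tab n fun i => if i = 0 then 0 else a.getD (i - 1) 0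

theorem sum_map_range (f : ℕ → ℤ) (n : ℕ) :
    ((List.range n).map f).sum = ∑ i ∈ Finset.range n, f i := by
  induction n with
  | zero => simp
  | succ n ih => rw [List.range_succ, List.map_append, List.sum_append, ih, Finset.sum_range_succ]; simp

namespace Approx

variable {n : ℕ} {P Q : PowerSeries ℤ} {a b : List ℤ}

theorem mono {m : ℕ} (h : Approx n P a) (hm : m ≤ n) : Approx m P a :=
  fun i hi => h i (lt_of_lt_of_le hi hm)

theorem one : Approx n 1 (oneL n) := fun i hi => by
  rw [oneL, getD_tab _ hi, coeff_one]

theorem add (h : Approx n P a) (h' : Approx n Q b) : Approx n (P + Q) (addL n a b) := fun i hi => by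
  rw [addL, getD_tab _ hi, map_add, h i hi, h' i hi]

theorem sub (h : Approx n P a) (h' : Approx n Q b) : Approx n (P - Q) (subL n a b) := fun i hi => by
  rw [subL, getD_tab _ hi, map_sub, h i hi, h' i hi]

theorem smul (c : ℤ) (h : Approx n P a) : Approx n (C c * P) (smulL n c a) := fun i hi => by
  rw [smulL, getD_tab _ hi, coeff_C_mul, h i hi]

theorem mul (h : Approx n P a) (h' : Approx n Q b) : Approx n (P * Q) (mulL n a b) := fun k hk => by
  rw [mulL, getD_tab _ hk, sum_map_range, coeff_mul,
    Finset.Nat.sum_antidiagonal_eq_sum_range_succ (fun i j => coeff i P * coeff j Q) k]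
  refine Finset.sum_congr rfl fun i hi => ?_
  have hi' : i < k + 1 := Finset.mem_range.mp hi
  rw [h i (by omega), h' (k - i) (by omega)]

theorem X_mul (h : Approx n P a) : Approx n (X * P) (shiftL n a) := fun i hi => by
  rw [shiftL, getD_tab _ hi]
  rcases i with _ | i
  · simp
  · rw [if_neg (Nat.succ_ne_zero i), coeff_succ_X_mul, h i (by omega)]; simp

theorem congr {P' : PowerSeries ℤ} (h : Approx n P a) (hP : P = P') : Approx n P' a := hP ▸ h

/-- if all entries vanish, so do the coefficients -/
theorem coeff_eq_zero (h : Approx n P a) (ha : (tab n fun i => a.getD i 0) = List.replicate n 0)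
    {i : ℕ} (hi : i < n) : coeff i P = 0 := by
  rw [h i hi]
  have h1 := getD_tab (fun i => a.getD i 0) hi
  rw [ha] at h1
  rw [← h1]
  simp [List.getD_eq_getElem?_getD, hi]

end Approx

/-- the series `P(q^d)` -/
noncomputable def expand (d : ℕ) (P : PowerSeries ℤ) : PowerSeries ℤ :=
  PowerSeries.mk fun n => if d ∣ n then coeff (n / d) P else 0

theorem coeff_expand (d : ℕ) (P : PowerSeries ℤ) (n : ℕ) :
    coeff n (expand d P) = if d ∣ n then coeff (n / d) P else 0 := by
  rw [expand, coeff_mk]

theorem Approx.expand {n m : ℕ} {P : PowerSeries ℤ} {a : List ℤ} (d : ℕ)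
    (h : Approx m P a) (hnm : n ≤ d * m) : Approx n (expand d P) (expandL d n a) := fun i hi => by
  rw [expandL, getD_tab _ hi, coeff_expand]
  by_cases hdi : d ∣ i
  · rw [if_pos hdi, if_pos (Nat.mod_eq_zero_of_dvd hdi)]
    refine h _ ?_
    have hd : 0 < d := by
      rcases Nat.eq_zero_or_pos d with rfl | hd
      · omega
      · exact hd
    exact (Nat.div_lt_iff_lt_mul hd).mpr (by rw [mul_comm]; omega)
  · rw [if_neg hdi, if_neg (fun h0 => hdi (Nat.dvd_of_mod_eq_zero h0))]

/-- a table of an explicitly given coefficient function -/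
theorem approx_mk (n : ℕ) (f : ℕ → ℤ) : Approx n (PowerSeries.mk f) (tab n f) := fun i hi => by
  rw [coeff_mk, getD_tab _ hi]

end Fermat.Agent.S18.Haupt9.Trunc
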