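import Mathlib
import Fermat.Prelude.Thm_ModularForm_sturm_bound_Gamma0
import Fermat.Agent.S20.Psi
import Fermat.Agent.S16.Two.Level3
import Fermat.Agent.S16.LevelRaise
import Fermat.Agent.S18.Haupt9.Trunc

set_option autoImplicit false

/-!
# S18, block D4 (level 9): modular forms with integral `q`-expansions and the Sturm bound

`MR N k P` : the integral power series `P` is the `q`-expansion of a modular form of weight `k`
on `Γ₀(N)`.  Closure under `+`, `-`, `*`, integer multiples, level raising `q ↦ q^d`, and the Sturm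
bound in the form "`P` vanishes as soon as its first coefficients do".
-/

namespace Fermat.Agent.S18.Haupt9

open UpperHalfPlane ModularForm EisensteinSeries CongruenceSubgroup PowerSeries
open Fermat.Agent.S20 Fermat.Agent.S20.Rank Fermat.Agent.S16.Two Fermat.Agent.S16.LevelRaise
open Fermat.Agent.S24.JPoly (qq Rep)
open Fermat.Agent.S24.EtaBridge (toC)
open Fermat.Agent.S18.Haupt9.Trunc (expand coeff_expand)
open scoped MatrixGroups

noncomputable section

/-- `P` is the `q`-expansion of a modular form of weight `k` on `Γ₀(N)`. -/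
def MR (N : ℕ) (k : ℤ) (P : PowerSeries ℤ) : Prop :=
  ∃ F : ℍ → ℂ, IsMF N k F ∧ Rep 1 (toC P) F

theorem isMF_of_dvd {N M : ℕ} (h : N ∣ M) {k : ℤ} {f : ℍ → ℂ} (hf : IsMF N k f) : IsMF M k f := by
  refine ⟨hf.1, fun γ hγ => hf.2.1 γ ?_, hf.2.2⟩
  rw [Gamma0_mem] at hγ ⊢
  obtain ⟨c, rfl⟩ := h
  have := congrArg (ZMod.castHom (Dvd.intro c rfl) (ZMod N)) hγ
  simpa using this

namespace MR

variable {N : ℕ} {k l m : ℤ} {P Q : PowerSeries ℤ}

theorem of_dvd {M : ℕ} (h : N ∣ M) (hP : MR N k P) : MR M k P := by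
  obtain ⟨F, hF, hrep⟩ := hP
  exact ⟨F, isMF_of_dvd h hF, hrep⟩

theorem add (hP : MR N k P) (hQ : MR N k Q) : MR N k (P + Q) := by
  obtain ⟨F, hF, hrF⟩ := hP
  obtain ⟨G, hG, hrG⟩ := hQ
  refine ⟨F + G, hF.add hG, ?_⟩
  have := hrF.add hrG
  rwa [toC, map_add]

theorem sub (hP : MR N k P) (hQ : MR N k Q) : MR N k (P - Q) := by
  obtain ⟨F, hF, hrF⟩ := hP
  obtain ⟨G, hG, hrG⟩ := hQ
  refine ⟨F + (-1 : ℂ) • G, hF.add (hG.smul (-1)), ?_⟩
  have := hrF.sub hrG
  rw [toC, map_sub]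
  refine this.congr fun z => ?_
  simp [sub_eq_add_neg]

theorem smul (c : ℤ) (hP : MR N k P) : MR N k (C c * P) := by
  obtain ⟨F, hF, hrF⟩ := hP
  refine ⟨(c : ℂ) • F, hF.smul (c : ℂ), ?_⟩
  have := hrF.const_mul (c : ℂ)
  rw [toC, map_mul, PowerSeries.map_C]
  refine this.congr fun z => ?_
  simp

theorem mul [NeZero N] (hP : MR N k P) (hQ : MR N l Q) (h : k + l = m) : MR N m (P * Q) := by
  obtain ⟨F, hF, hrF⟩ := hP
  obtain ⟨G, hG, hrG⟩ := hQ
  refine ⟨F * G, h ▸ hF.mul hG, ?_⟩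
  have := hrF.mul hrG
  rw [toC, map_mul]
  exact this.congr fun z => rfl

theorem congr (hP : MR N k P) (h : P = Q) : MR N k Q := h ▸ hP

/-- level raising `q ↦ q^d` -/
theorem expand (d : ℕ) [NeZero d] (hP : MR N k P) : MR (d * N) k (expand d P) := by
  obtain ⟨F, hF, hrF⟩ := hP
  refine ⟨Vd d F, IsMF.Vd d hF, fun z => ?_⟩
  have h := hasSum_Vd d (f := F) (c := fun n => PowerSeries.coeff n (toC P))
    (fun τ => by
      have := hrF τ
      rw [Fermat.Agent.S24.JPoly.qq_one] at this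
      simpa only [smul_eq_mul] using this) z
  rw [Fermat.Agent.S24.JPoly.qq_one]
  refine h.congr_fun fun n => ?_
  simp only [smul_eq_mul, toC, PowerSeries.coeff_map, coeff_expand]
  by_cases hdn : d ∣ n
  · simp [hdn]
  · simp [hdn]

/-- **Sturm bound**: if the first coefficients of `P` vanish, then `P = 0`. -/
theorem eq_zero [NeZero N] (hP : MR N k P) (b : ℕ)
    (hb : (k * (Gamma0 N).index).toNat / 12 < b) (h0 : ∀ i, i < b → coeff i P = 0) : P = 0 := by
  obtain ⟨F, hF, hrF⟩ := hP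
  have hq : qExpansion 1 (⇑hF.toMF) = toC P := qExpansion_eq_of_rep hF hrF
  have hzero : hF.toMF = 0 := by
    apply ModularForm.sturm_bound_Gamma0 N
    intro n hn
    rw [hq, toC, PowerSeries.coeff_map, h0 n (lt_of_le_of_lt hn hb), map_zero]
  apply toC_injective
  rw [← hq, hzero]
  ext n
  have : Rep 1 0 (⇑(0 : ModularForm (Gamma0 N) k)) := fun z => by simp
  have h1 := qExpansion_eq_of_rep (isMF_zero N k) (P := 0) (fun z => by simp)
  have h2 : (⇑(0 : ModularForm (Gamma0 N) k) : ℍ → ℂ) = 0 := rfl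
  rw [h2, h1]
  simp [toC]

end MR

/-! ### base cases -/

theorem mr_BZ : MR 3 2 BZ := ⟨B3, isMF_B3, rep_B3⟩

theorem mr_E4 : MR 1 4 ModularCurve.eisenstein4 :=
  ⟨fun z => E₄ z, isMF_E4, rep_E4⟩

theorem mr_Delta : MR 1 12 DeltaZ :=
  ⟨fun z => ModularForm.discriminant z, isMF_delta, rep_Delta⟩

theorem index_Gamma0_nine : (Gamma0 9).index = 12 := by
  rw [index_Gamma0 9 (by norm_num)]
  have := dedekindPsi_mul_prime_of_dvd (M := 3) (by norm_num) Nat.prime_three (dvd_refl 3)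
  have h3 := index_Gamma0_three
  rw [index_Gamma0 3 (by norm_num)] at h3
  rw [show (9 : ℕ) = 3 * 3 from rfl, this, h3]

end

end Fermat.Agent.S18.Haupt9
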