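import Mathlib
import Fermat.Agent.S18.Haupt9.Forms

set_option autoImplicit false

/-!
# S18, block D4 (level 9): the four Sturm-bound identities

With `B = BZ`, `C = CZ`, `D = DZ` (level 3) and `B' = B(q³)`, `C' = C(q³)`, `D' = D(q³)`:

* `e4_three`    : `9 E₄(q³) = 9 C + D`                         (level 3, weight 4)
* `delta_three` : `3⁹ Δ(q³) (C + D) = C D³`                     (level 3, weight 16)
* `X2`          : `n³ = 108 C (n² + 36 n D + 432 D²)`           (level 9, weight 12)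
* `X1`          : `(n³ + 36 n² D + 432 n D²) D' = 1728 C' D³`   (level 9, weight 16)

where `n = numZ = 27 C - 9 D + 81 B B'` (so that `t = n / (4 D)` is the Hauptmodul of `Γ₀(9)`).
-/

namespace Fermat.Agent.S18.Haupt9

open PowerSeries CongruenceSubgroup
open Fermat.Agent.S16.Two
open Fermat.Agent.S18.Haupt9.Trunc

noncomputable section

/-! ### tables of the basic series -/

def bL : List ℤ := [0, 1, 3, 1, 7, 6, 3, 8, 15, 1, 18, 12, 7, 14, 24, 6, 31]

def sL : List ℤ :=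
  [0, 1, 9, 28, 73, 126, 252, 344, 585, 757, 1134, 1332, 2044, 2198, 3096, 3528, 4681]

theorem approx_bZ : Approx 17 bZ bL := by
  intro i hi
  rw [coeff_bZ]
  interval_cases i <;> decide

theorem approx_S3Z : Approx 17 S3Z sL := by
  intro i hi
  rw [S3Z, coeff_mk]
  interval_cases i <;> decide


/-! ### `B`, `C`, `D` in calculator form -/

theorem c_ofNat (n : ℕ) [n.AtLeastTwo] : (OfNat.ofNat n : PowerSeries ℤ) = C (OfNat.ofNat n : ℤ) :=
  (map_ofNat (C (R := ℤ)) n).symm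

theorem BZ_eq : BZ = 1 + C 12 * bZ := by rw [BZ, c_ofNat 12]

theorem CZ_eq : CZ = 1 + C 27 * bZ + C 162 * (bZ * bZ) - C 30 * S3Z := by
  rw [CZ, c_ofNat 27, c_ofNat 162, c_ofNat 30, pow_two]

theorem DZ_eq : DZ = C 30 * S3Z - C 3 * bZ - C 18 * (bZ * bZ) := by
  rw [DZ, c_ofNat 30, c_ofNat 3, c_ofNat 18, pow_two]

def BL : List ℤ := addL 17 (oneL 17) (smulL 17 12 bL)

def CL : List ℤ :=
  subL 17 (addL 17 (addL 17 (oneL 17) (smulL 17 27 bL)) (smulL 17 162 (mulL 17 bL bL)))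
    (smulL 17 30 sL)

def DL : List ℤ :=
  subL 17 (subL 17 (smulL 17 30 sL) (smulL 17 3 bL)) (smulL 17 18 (mulL 17 bL bL))

theorem approx_BZ : Approx 17 BZ BL :=
  (Approx.one.add (approx_bZ.smul 12)).congr BZ_eq.symm

theorem approx_CZ : Approx 17 CZ CL :=
  ((((Approx.one.add (approx_bZ.smul 27)).add ((approx_bZ.mul approx_bZ).smul 162)).sub
    (approx_S3Z.smul 30))).congr CZ_eq.symm

theorem approx_DZ : Approx 17 DZ DL :=
  ((((approx_S3Z.smul 30).sub (approx_bZ.smul 3)).sub ((approx_bZ.mul approx_bZ).smul 18))).congr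
    DZ_eq.symm

/-! ### the modular forms -/

theorem mr_of_smul {N : ℕ} {k : ℤ} {P : PowerSeries ℤ} (c : ℤ) (hc : c ≠ 0)
    (h : MR N k (C c * P)) : MR N k P := by
  obtain ⟨F, hF, hrF⟩ := h
  refine ⟨((c : ℂ)⁻¹) • F, hF.smul _, ?_⟩
  have := hrF.const_mul ((c : ℂ)⁻¹)
  have hc' : (c : ℂ) ≠ 0 := by exact_mod_cast hc
  have e : C ((c : ℂ)⁻¹) * Fermat.Agent.S24.EtaBridge.toC (C c * P)
      = Fermat.Agent.S24.EtaBridge.toC P := by
    rw [Fermat.Agent.S24.EtaBridge.toC, map_mul, PowerSeries.map_C, ← mul_assoc, ← map_mul]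
    simp [hc']
  rw [e] at this
  exact this.congr fun z => by simp

theorem mr_E4_three : MR 3 4 ModularCurve.eisenstein4 := mr_E4.of_dvd (one_dvd 3)

theorem mr_BZ_sq : MR 3 4 (BZ * BZ) := mr_BZ.mul mr_BZ (by norm_num)

theorem mr_CZ : MR 3 4 CZ := by
  refine mr_of_smul 8 (by norm_num) ?_
  have h := (mr_BZ_sq.smul 9).sub mr_E4_three
  refine h.congr ?_
  have := nine_BZ_sq_sub
  rw [c_ofNat 9, pow_two] at this
  rw [this, c_ofNat 8]

theorem mr_DZ : MR 3 4 DZ := by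
  refine mr_of_smul 8 (by norm_num) ?_
  have h := mr_E4_three.sub mr_BZ_sq
  refine h.congr ?_
  have := eisenstein4_sub_BZ_sq
  rw [pow_two] at this
  rw [this, c_ofNat 8]


/-! ### level 3: `E₄(q³)` and `Δ(q³)` -/

theorem E4_eq : ModularCurve.eisenstein4 = 1 + C 240 * S3Z := by
  rw [eisenstein4_eq, c_ofNat 240]

def E4L : List ℤ := addL 17 (oneL 17) (smulL 17 240 sL)

theorem approx_E4 : Approx 17 ModularCurve.eisenstein4 E4L :=
  (Approx.one.add (approx_S3Z.smul 240)).congr E4_eq.symm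

/-- `9 E₄(q³) - (9 C + D)` -/
def e4Rel : PowerSeries ℤ := C 9 * expand 3 ModularCurve.eisenstein4 - (C 9 * CZ + DZ)

theorem mr_e4Rel : MR 3 4 e4Rel :=
  ((mr_E4.expand 3).smul 9).sub ((mr_CZ.smul 9).add mr_DZ)

theorem index_three_bound (k : ℤ) : (k * ((Gamma0 3).index : ℤ)).toNat / 12 = (k * 4).toNat / 12 := by
  rw [index_Gamma0_three]; rfl

theorem index_nine_bound (k : ℤ) : (k * ((Gamma0 9).index : ℤ)).toNat / 12 = (k * 12).toNat / 12 := by
  rw [index_Gamma0_nine]; rfl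

theorem e4Rel_eq_zero : e4Rel = 0 := by
  refine mr_e4Rel.eq_zero 2 (by rw [index_three_bound]; decide) fun i hi => ?_
  have h : Approx 2 e4Rel _ :=
    (((approx_E4.expand 3 (n := 2) (by norm_num)).smul 9).sub
      (((approx_CZ.mono (by norm_num)).smul 9).add (approx_DZ.mono (by norm_num))))
  exact h.coeff_eq_zero (by decide +kernel) hi

/-- **`9 E₄(q³) = 9 C + D`** -/
theorem e4_three : C 9 * expand 3 ModularCurve.eisenstein4 = C 9 * CZ + DZ :=
  sub_eq_zero.mp e4Rel_eq_zero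

theorem approx_DeltaZ : Approx 2 DeltaZ [0, 1] := by
  intro i hi
  rw [DeltaZ]
  interval_cases i
  · simp
  · rw [show (1 : ℕ) = 0 + 1 from rfl, coeff_succ_X_mul, coeff_zero_eq_constantCoeff_apply,
      ModularCurve.constantCoeff_dedekindEtaUnit]
    rfl

/-- `3⁹ Δ(q³) (C + D) - C D³` -/
def deltaRel : PowerSeries ℤ :=
  C 19683 * (expand 3 DeltaZ * (CZ + DZ)) - CZ * (DZ * DZ * DZ)

theorem mr_deltaRel : MR 3 16 deltaRel :=
  (((mr_Delta.expand 3).mul (mr_CZ.add mr_DZ) (by norm_num)).smul 19683).sub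
    (mr_CZ.mul ((mr_DZ.mul mr_DZ (m := 8) (by norm_num)).mul mr_DZ (m := 12) (by norm_num))
      (by norm_num))

theorem deltaRel_eq_zero : deltaRel = 0 := by
  refine mr_deltaRel.eq_zero 6 (by rw [index_three_bound]; decide) fun i hi => ?_
  have hC := approx_CZ.mono (m := 6) (by norm_num)
  have hD := approx_DZ.mono (m := 6) (by norm_num)
  have h : Approx 6 deltaRel _ :=
    ((((approx_DeltaZ.expand 3 (n := 6) (by norm_num)).mul (hC.add hD)).smul 19683).sub
      (hC.mul ((hD.mul hD).mul hD)))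
  exact h.coeff_eq_zero (by decide +kernel) hi

/-- **`3⁹ Δ(q³) (C + D) = C D³`** -/
theorem delta_three : C 19683 * (expand 3 DeltaZ * (CZ + DZ)) = CZ * (DZ * DZ * DZ) :=
  sub_eq_zero.mp deltaRel_eq_zero

/-! ### level 9 -/

/-- `n = 27 C - 9 D + 81 B B(q³)`; the Hauptmodul is `t = n / (4 D)`. -/
def numZ : PowerSeries ℤ := C 27 * CZ - C 9 * DZ + C 81 * (BZ * expand 3 BZ)

theorem mr_numZ : MR 9 4 numZ :=
  (((mr_CZ.of_dvd (by norm_num)).smul 27).sub ((mr_DZ.of_dvd (by norm_num)).smul 9)).add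
    (((mr_BZ.of_dvd (by norm_num : 3 ∣ 9)).mul (mr_BZ.expand 3) (by norm_num)).smul 81)

def numL : List ℤ :=
  addL 17 (subL 17 (smulL 17 27 CL) (smulL 17 9 DL)) (smulL 17 81 (mulL 17 BL (expandL 3 17 BL)))

theorem approx_numZ : Approx 17 numZ numL :=
  (((approx_CZ.smul 27).sub (approx_DZ.smul 9)).add
    ((approx_BZ.mul (approx_BZ.expand 3 (by norm_num))).smul 81))

/-- `n³ - 108 C (n² + 36 n D + 432 D²)` -/
def x2Rel : PowerSeries ℤ :=
  numZ * numZ * numZ - C 108 * (CZ * (numZ * numZ + C 36 * (numZ * DZ) + C 432 * (DZ * DZ)))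

theorem mr_CZ9 : MR 9 4 CZ := mr_CZ.of_dvd (by norm_num)

theorem mr_DZ9 : MR 9 4 DZ := mr_DZ.of_dvd (by norm_num)

theorem mr_x2Rel : MR 9 12 x2Rel :=
  ((mr_numZ.mul mr_numZ (m := 8) (by norm_num)).mul mr_numZ (m := 12) (by norm_num)).sub
    ((mr_CZ9.mul (((mr_numZ.mul mr_numZ (m := 8) (by norm_num)).add
      ((mr_numZ.mul mr_DZ9 (m := 8) (by norm_num)).smul 36)).add
      ((mr_DZ9.mul mr_DZ9 (m := 8) (by norm_num)).smul 432)) (m := 12) (by norm_num)).smul 108)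

theorem x2Rel_eq_zero : x2Rel = 0 := by
  refine mr_x2Rel.eq_zero 13 (by rw [index_nine_bound]; decide) fun i hi => ?_
  have hn := approx_numZ.mono (m := 13) (by norm_num)
  have hC := approx_CZ.mono (m := 13) (by norm_num)
  have hD := approx_DZ.mono (m := 13) (by norm_num)
  have h : Approx 13 x2Rel _ :=
    ((hn.mul hn).mul hn).sub
      ((hC.mul (((hn.mul hn).add ((hn.mul hD).smul 36)).add ((hD.mul hD).smul 432))).smul 108)
  exact h.coeff_eq_zero (by decide +kernel) hi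

/-- **(X2)** `n³ = 108 C (n² + 36 n D + 432 D²)` -/
theorem X2 :
    numZ * numZ * numZ = C 108 * (CZ * (numZ * numZ + C 36 * (numZ * DZ) + C 432 * (DZ * DZ))) :=
  sub_eq_zero.mp x2Rel_eq_zero

/-- `(n³ + 36 n² D + 432 n D²) D(q³) - 1728 C(q³) D³` -/
def x1Rel : PowerSeries ℤ :=
  (numZ * numZ * numZ + C 36 * (numZ * numZ * DZ) + C 432 * (numZ * (DZ * DZ))) * expand 3 DZ
    - C 1728 * (expand 3 CZ * (DZ * DZ * DZ))

theorem mr_x1Rel : MR 9 16 x1Rel :=
  (((((mr_numZ.mul mr_numZ (m := 8) (by norm_num)).mul mr_numZ (m := 12) (by norm_num)).add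
      (((mr_numZ.mul mr_numZ (m := 8) (by norm_num)).mul mr_DZ9 (m := 12) (by norm_num)).smul 36)).add
      ((mr_numZ.mul (mr_DZ9.mul mr_DZ9 (m := 8) (by norm_num)) (m := 12) (by norm_num)).smul 432)).mul
    (mr_DZ.expand 3) (m := 16) (by norm_num)).sub
    (((mr_CZ.expand 3).mul
      ((mr_DZ9.mul mr_DZ9 (m := 8) (by norm_num)).mul mr_DZ9 (m := 12) (by norm_num))
      (m := 16) (by norm_num)).smul 1728)

theorem x1Rel_eq_zero : x1Rel = 0 := by
  refine mr_x1Rel.eq_zero 17 (by rw [index_nine_bound]; decide) fun i hi => ?_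
  have hn := approx_numZ
  have hC := approx_CZ
  have hD := approx_DZ
  have h : Approx 17 x1Rel _ :=
    ((((hn.mul hn).mul hn).add (((hn.mul hn).mul hD).smul 36)).add
        ((hn.mul (hD.mul hD)).smul 432)).mul (hD.expand 3 (by norm_num)) |>.sub
      (((hC.expand 3 (by norm_num)).mul ((hD.mul hD).mul hD)).smul 1728)
  exact h.coeff_eq_zero (by decide +kernel) hi

/-- **(X1)** `(n³ + 36 n² D + 432 n D²) D(q³) = 1728 C(q³) D³` -/
theorem X1 :
    (numZ * numZ * numZ + C 36 * (numZ * numZ * DZ) + C 432 * (numZ * (DZ * DZ))) * expand 3 DZ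
      = C 1728 * (expand 3 CZ * (DZ * DZ * DZ)) :=
  sub_eq_zero.mp x1Rel_eq_zero

end

end Fermat.Agent.S18.Haupt9
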