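import Mathlib
import Fermat.Agent.S18.Haupt9.Identities
import Fermat.Prelude.Def_ModularCurve_X0ModL

set_option autoImplicit false

/-!
# S18, block D4 (level 9): the Hauptmodul `t` of `Γ₀(9)` as an integral Laurent series

`tZ = q⁻¹ - 3 + 5 q² - … ∈ ℤ((q))` (`= (η(z)/η(9z))³`), `TZ = q⁻¹ + … ` (`= (η(z)/η(3z))¹²`, the
Hauptmodul of `Γ₀(3)`), and the relations in `ℤ((q))`:

* `t_cube`  : `t³ = T (t² + 9t + 27)`
* `t_cubic` : `t³ + 9t² + 27t = T(q³)`
* `j_T`     : `j T³ = (T + 27)(T + 243)³`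
* `j3_T`    : `j(q³) T = (T + 27)(T + 3)³`
* `j_t`     : `j t⁹ (t² + 9t + 27) = (t + 9)³ (t³ + 243t² + 2187t + 6561)³`
* `j3_t`    : `j(q³) t³ (t² + 9t + 27)³ = (t + 9)³ (t³ + 3t² + 27t + 81)³`
* `j9_t`    : `j(q⁹) t (t² + 9t + 27) = (t + 3)³ (t³ + 9t² + 27t + 3)³`
-/

namespace Fermat.Agent.S18.Haupt9

open PowerSeries HahnSeries ModularCurve
open Fermat.Agent.S16.Two
open Fermat.Agent.S18.Haupt9.Trunc

noncomputable section

/-- `ℤ[[q]] → ℤ((q))` -/
abbrev iota : PowerSeries ℤ →+* LaurentSeries ℤ := HahnSeries.ofPowerSeries ℤ ℤ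

/-- `q⁻¹` -/
def qinv : LaurentSeries ℤ := HahnSeries.single (-1 : ℤ) (1 : ℤ)

theorem qinv_mul_X : qinv * iota PowerSeries.X = 1 := by
  rw [qinv, iota, HahnSeries.ofPowerSeries_X, HahnSeries.single_mul_single]
  simp

theorem iota_injective : Function.Injective iota := HahnSeries.ofPowerSeries_injective

theorem iota_C (c : ℤ) : iota (PowerSeries.C c) = (c : LaurentSeries ℤ) := by
  rw [iota, HahnSeries.ofPowerSeries_C]
  simp

/-! ### units -/

theorem constantCoeff_S3Z : constantCoeff S3Z = 0 := by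
  rw [← coeff_zero_eq_constantCoeff_apply, S3Z, coeff_mk, if_pos rfl]

theorem constantCoeff_CZ : constantCoeff CZ = 1 := by
  rw [CZ]
  simp [constantCoeff_S3Z]

theorem constantCoeff_BZ : constantCoeff BZ = 1 := by
  rw [BZ]
  simp

/-- `C⁻¹` -/
def CZinv : PowerSeries ℤ := CZ.invOfUnit 1

theorem CZ_mul_inv : CZ * CZinv = 1 :=
  PowerSeries.mul_invOfUnit _ _ (by rw [constantCoeff_CZ]; rfl)

/-- `u = D / (27 q)` -/
def uZ : PowerSeries ℤ := dedekindEtaUnit * (BZ * BZ) * (CZinv * CZinv * CZinv)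

theorem constantCoeff_CZinv : constantCoeff CZinv = 1 := by
  have h := congrArg (constantCoeff (R := ℤ)) CZ_mul_inv
  rwa [map_mul, constantCoeff_CZ, one_mul, map_one] at h

theorem constantCoeff_uZ : constantCoeff uZ = 1 := by
  rw [uZ]
  simp only [map_mul, constantCoeff_dedekindEtaUnit, constantCoeff_BZ, constantCoeff_CZinv, mul_one]

def uZinv : PowerSeries ℤ := uZ.invOfUnit 1

theorem uZ_mul_inv : uZ * uZinv = 1 :=
  PowerSeries.mul_invOfUnit _ _ (by rw [constantCoeff_uZ]; rfl)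

/-- `D = 27 q u` -/
theorem DZ_eq_X_mul : DZ = PowerSeries.C 27 * (PowerSeries.X * uZ) := by
  have hI := i3Series.reduced
  have h1 := CZ_mul_inv
  have e27 : (27 : PowerSeries ℤ) = PowerSeries.C 27 := c_ofNat 27
  rw [DeltaZ, e27] at hI
  have h2 : DZ = DZ * (CZ * CZinv) ^ 3 := by rw [h1]; ring
  rw [h2, uZ]
  linear_combination (-(CZinv ^ 3)) * hI

/-! ### `n = 108 n₀` -/

theorem expand_add (d : ℕ) (P Q : PowerSeries ℤ) : expand d (P + Q) = expand d P + expand d Q := by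
  ext n
  rw [map_add, coeff_expand, coeff_expand, coeff_expand]
  split_ifs <;> simp

theorem expand_C_mul (d : ℕ) (c : ℤ) (P : PowerSeries ℤ) :
    expand d (PowerSeries.C c * P) = PowerSeries.C c * expand d P := by
  ext n
  rw [PowerSeries.coeff_C_mul, coeff_expand, coeff_expand]
  split_ifs
  · rw [PowerSeries.coeff_C_mul]
  · rw [mul_zero]

theorem expand_one (d : ℕ) (hd : 0 < d) : expand d (1 : PowerSeries ℤ) = 1 := by
  ext n
  rw [coeff_expand, PowerSeries.coeff_one, PowerSeries.coeff_one]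
  by_cases hn : n = 0
  · subst hn; simp
  · rw [if_neg hn]
    split_ifs with h1 h2
    · exfalso
      obtain ⟨m, rfl⟩ := h1
      rw [Nat.mul_div_cancel_left _ hd] at h2
      subst h2
      exact hn (mul_zero d)
    · rfl
    · rfl

/-- `n₀ = n / 108` -/
def n0Z : PowerSeries ℤ :=
  BZ * (1 + PowerSeries.C 3 * bZ + PowerSeries.C 9 * expand 3 bZ)
    - (PowerSeries.C 10 * S3Z - bZ - PowerSeries.C 6 * (bZ * bZ))

theorem numZ_eq : numZ = PowerSeries.C 108 * n0Z := by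
  have hB' : expand 3 BZ = 1 + PowerSeries.C 12 * expand 3 bZ := by
    rw [BZ_eq, expand_add, expand_one 3 (by norm_num), expand_C_mul]
  rw [numZ, n0Z, hB', CZ_eq, DZ_eq, BZ_eq]
  simp only [map_ofNat]
  ring

/-! ### the Laurent series `t`, `T` -/

/-- the Hauptmodul of `Γ₀(9)`: `t = n / (4 D) = q⁻¹ - 3 + 5q² - …` -/
def tZ : LaurentSeries ℤ := qinv * iota (n0Z * uZinv)

/-- the Hauptmodul of `Γ₀(3)`: `T = 27 C / D = q⁻¹ + …` -/
def TZ : LaurentSeries ℤ := qinv * iota (CZ * uZinv)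

theorem tZ_mul_D : tZ * iota DZ = 27 * iota n0Z := by
  rw [tZ, DZ_eq_X_mul, map_mul, map_mul, map_mul, iota_C]
  have h1 := qinv_mul_X
  have h2 := congrArg iota uZ_mul_inv
  rw [map_mul, map_one] at h2
  push_cast
  linear_combination (27 * iota n0Z * iota uZinv * iota uZ) * h1 + (27 * iota n0Z) * h2

theorem TZ_mul_D : TZ * iota DZ = 27 * iota CZ := by
  rw [TZ, DZ_eq_X_mul, map_mul, map_mul, map_mul, iota_C]
  have h1 := qinv_mul_X
  have h2 := congrArg iota uZ_mul_inv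
  rw [map_mul, map_one] at h2
  push_cast
  linear_combination (27 * iota CZ * iota uZinv * iota uZ) * h1 + (27 * iota CZ) * h2

theorem four_tZ_mul_D : 4 * tZ * iota DZ = iota numZ := by
  rw [numZ_eq, map_mul, iota_C]
  push_cast
  linear_combination 4 * tZ_mul_D

theorem iota_DZ_ne_zero : iota DZ ≠ 0 := by
  intro h
  have h0 : DZ = 0 := iota_injective (by rw [h, map_zero])
  have := approx_DZ 1 (by norm_num)
  rw [h0] at this
  revert this
  decide +kernel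


/-! ### `q ↦ q³` on Laurent series -/

theorem iota_expand (d : ℕ) [NeZero d] (P : PowerSeries ℤ) :
    iota (expand d P) = qExpand ℤ d (iota P) := by
  ext k
  rcases lt_or_ge k 0 with hk | hk
  · rw [ofPowerSeries_coeff_of_neg _ hk]
    by_cases hdk : (d : ℤ) ∣ k
    · obtain ⟨m, rfl⟩ := hdk
      rw [qExpand_coeff_mul, ofPowerSeries_coeff_of_neg]
      have hd : (0 : ℤ) < d := by exact_mod_cast Nat.pos_of_ne_zero (NeZero.ne d)
      by_contra hm
      push Not at hm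
      have := mul_nonneg hd.le hm
      omega
    · rw [qExpand_coeff_of_not_dvd _ _ hdk]
  · lift k to ℕ using hk
    rw [iota, HahnSeries.ofPowerSeries_apply_coeff, coeff_expand]
    by_cases hdk : d ∣ k
    · obtain ⟨m, rfl⟩ := hdk
      rw [if_pos (dvd_mul_right d m), Nat.mul_div_cancel_left _ (Nat.pos_of_ne_zero (NeZero.ne d))]
      push_cast
      rw [qExpand_coeff_mul, HahnSeries.ofPowerSeries_apply_coeff]
    · rw [if_neg hdk, qExpand_coeff_of_not_dvd]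
      exact_mod_cast hdk

/-- `T(q³)` -/
def TZ3 : LaurentSeries ℤ := qExpand ℤ 3 TZ

theorem TZ3_mul_D : TZ3 * iota (expand 3 DZ) = 27 * iota (expand 3 CZ) := by
  have h := congrArg (qExpand ℤ 3) TZ_mul_D
  rw [map_mul, map_mul, ← iota_expand, ← iota_expand] at h
  rw [TZ3, h, map_ofNat]

theorem iota_expand_DZ_ne_zero : iota (expand 3 DZ) ≠ 0 := by
  rw [iota_expand]
  intro h
  exact iota_DZ_ne_zero (qExpand_injective 3 (by rw [h, map_zero]))

/-! ### the relations between `t` and `T` -/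

theorem intCast_ne_zero {c : ℤ} (hc : c ≠ 0) : ((c : ℤ) : LaurentSeries ℤ) ≠ 0 := by
  rw [← iota_C]
  intro h
  have h0 : PowerSeries.C c = (0 : PowerSeries ℤ) := iota_injective (by rw [h, map_zero])
  have := congrArg (PowerSeries.constantCoeff (R := ℤ)) h0
  rw [PowerSeries.constantCoeff_C, map_zero] at this
  exact hc this

theorem ofNat_ne_zero (n : ℕ) [n.AtLeastTwo] (hn : (n : ℤ) ≠ 0) :
    (OfNat.ofNat n : LaurentSeries ℤ) ≠ 0 := by
  have := intCast_ne_zero hn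
  rw [Int.cast_natCast] at this
  rw [← Nat.cast_ofNat (R := LaurentSeries ℤ) (n := n)]
  exact this

/-- **`t³ = T (t² + 9t + 27)`** -/
theorem t_cube : tZ ^ 3 = TZ * (tZ ^ 2 + 9 * tZ + 27) := by
  have hX2 := congrArg iota X2
  simp only [map_mul, map_add, iota_C] at hX2
  rw [← four_tZ_mul_D] at hX2
  push_cast at hX2
  have hT := TZ_mul_D
  have hd := iota_DZ_ne_zero
  have h64 : (64 : LaurentSeries ℤ) * iota DZ ^ 3 ≠ 0 := by
    refine mul_ne_zero ?_ (pow_ne_zero 3 hd)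
    exact ofNat_ne_zero 64 (by norm_num)
  apply mul_left_cancel₀ h64
  linear_combination hX2 - (64 * iota DZ ^ 2 * (tZ ^ 2 + 9 * tZ + 27)) * hT

/-- **`t³ + 9t² + 27t = T(q³)`** -/
theorem t_cubic : tZ ^ 3 + 9 * tZ ^ 2 + 27 * tZ = TZ3 := by
  have hX1 := congrArg iota X1
  simp only [map_mul, map_add, iota_C] at hX1
  rw [← four_tZ_mul_D] at hX1
  push_cast at hX1
  have hT := TZ3_mul_D
  have hd := iota_DZ_ne_zero
  have hd' := iota_expand_DZ_ne_zero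
  have h64 : (64 : LaurentSeries ℤ) * iota DZ ^ 3 * iota (expand 3 DZ) ≠ 0 := by
    refine mul_ne_zero (mul_ne_zero ?_ (pow_ne_zero 3 hd)) hd'
    exact ofNat_ne_zero 64 (by norm_num)
  apply mul_left_cancel₀ h64
  linear_combination hX1 - (64 * iota DZ ^ 3) * hT


/-! ### abstract algebra of the `j`-relations -/

section Abstract

variable {R : Type*} [CommRing R] [IsDomain R]

theorem jT_abs (j T c d b2 δ e4 : R) (hd : d ≠ 0) (hT : T * d = 27 * c) (hj : j * δ = e4 ^ 3)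
    (h2 : e4 = c + 9 * d) (h3 : b2 = c + d) (h4 : 27 * δ * b2 = c ^ 3 * d) :
    j * T ^ 3 = (T + 27) * (T + 243) ^ 3 := by
  apply mul_left_cancel₀ (pow_ne_zero 4 hd)
  have e1 : d ^ 4 * (j * T ^ 3) = j * (T * d) ^ 3 * d := by ring
  have e2 : d ^ 4 * ((T + 27) * (T + 243) ^ 3) = (T * d + 27 * d) * (T * d + 243 * d) ^ 3 := by ring
  rw [e1, e2, hT]
  have e3 : j * (27 * c) ^ 3 * d = 27 ^ 3 * j * (c ^ 3 * d) := by ring
  rw [e3, ← h4]
  have e4' : 27 ^ 3 * j * (27 * δ * b2) = 27 ^ 4 * (j * δ) * b2 := by ring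
  rw [e4', hj, h2, h3]
  ring

theorem j3T_abs (j3 T c d δ' e4' : R) (hd : d ≠ 0) (hT : T * d = 27 * c) (hj : j3 * δ' = e4' ^ 3)
    (h2 : 9 * e4' = 9 * c + d) (h4 : 19683 * (δ' * (c + d)) = c * (d * d * d)) :
    j3 * T = (T + 27) * (T + 3) ^ 3 := by
  apply mul_left_cancel₀ (pow_ne_zero 4 hd)
  have e1 : d ^ 4 * (j3 * T) = j3 * (T * d) * d ^ 3 := by ring
  have e2 : d ^ 4 * ((T + 27) * (T + 3) ^ 3) = (T * d + 27 * d) * (T * d + 3 * d) ^ 3 := by ring
  rw [e1, e2, hT]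
  have e3 : j3 * (27 * c) * d ^ 3 = 27 * j3 * (c * (d * d * d)) := by ring
  rw [e3, ← h4]
  have e4 : 27 * j3 * (19683 * (δ' * (c + d))) = 27 * 19683 * (j3 * δ') * (c + d) := by ring
  rw [e4, hj]
  have e5 : (27 * c + 27 * d) * (27 * c + 3 * d) ^ 3 = 27 * 27 * (c + d) * (9 * c + d) ^ 3 := by ring
  rw [e5, ← h2]
  ring

omit [IsDomain R] in
theorem jt_abs (j T t : R) (hjT : j * T ^ 3 = (T + 27) * (T + 243) ^ 3)
    (ht : t ^ 3 = T * (t ^ 2 + 9 * t + 27)) :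
    j * (t ^ 9 * (t ^ 2 + 9 * t + 27)) =
      (t + 9) ^ 3 * (t ^ 3 + 243 * t ^ 2 + 2187 * t + 6561) ^ 3 := by
  have e1 : j * (t ^ 9 * (t ^ 2 + 9 * t + 27)) = j * (t ^ 3) ^ 3 * (t ^ 2 + 9 * t + 27) := by ring
  rw [e1, ht]
  have e2 : j * (T * (t ^ 2 + 9 * t + 27)) ^ 3 * (t ^ 2 + 9 * t + 27)
      = (j * T ^ 3) * (t ^ 2 + 9 * t + 27) ^ 4 := by ring
  rw [e2, hjT]
  have e3 : (T + 27) * (T + 243) ^ 3 * (t ^ 2 + 9 * t + 27) ^ 4
      = (T * (t ^ 2 + 9 * t + 27) + 27 * (t ^ 2 + 9 * t + 27)) *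
        (T * (t ^ 2 + 9 * t + 27) + 243 * (t ^ 2 + 9 * t + 27)) ^ 3 := by ring
  rw [e3, ← ht]
  ring

omit [IsDomain R] in
theorem j3t_abs (j3 T t : R) (hjT : j3 * T = (T + 27) * (T + 3) ^ 3)
    (ht : t ^ 3 = T * (t ^ 2 + 9 * t + 27)) :
    j3 * (t ^ 3 * (t ^ 2 + 9 * t + 27) ^ 3) =
      (t + 9) ^ 3 * (t ^ 3 + 3 * t ^ 2 + 27 * t + 81) ^ 3 := by
  rw [ht]
  have e2 : j3 * (T * (t ^ 2 + 9 * t + 27) * (t ^ 2 + 9 * t + 27) ^ 3)
      = (j3 * T) * (t ^ 2 + 9 * t + 27) ^ 4 := by ring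
  rw [e2, hjT]
  have e3 : (T + 27) * (T + 3) ^ 3 * (t ^ 2 + 9 * t + 27) ^ 4
      = (T * (t ^ 2 + 9 * t + 27) + 27 * (t ^ 2 + 9 * t + 27)) *
        (T * (t ^ 2 + 9 * t + 27) + 3 * (t ^ 2 + 9 * t + 27)) ^ 3 := by ring
  rw [e3, ← ht]
  ring

omit [IsDomain R] in
theorem j9t_abs (j9 T' t : R) (hjT : j9 * T' = (T' + 27) * (T' + 3) ^ 3)
    (ht : t ^ 3 + 9 * t ^ 2 + 27 * t = T') :
    j9 * (t * (t ^ 2 + 9 * t + 27)) = (t + 3) ^ 3 * (t ^ 3 + 9 * t ^ 2 + 27 * t + 3) ^ 3 := by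
  have e1 : t * (t ^ 2 + 9 * t + 27) = T' := by rw [← ht]; ring
  rw [e1, hjT, ← ht]
  ring

end Abstract

/-! ### the `j`-relations in `ℤ((q))` -/

/-- `j ∈ ℤ((q))` -/
abbrev jZ : LaurentSeries ℤ := jqModC ℤ

theorem jZ_mul_Delta : jZ * iota DeltaZ = iota ModularCurve.eisenstein4 ^ 3 := by
  have hmap : jNum.map (Int.castRingHom ℤ) = jNum := by
    ext n
    rw [PowerSeries.coeff_map]
    simp
  rw [jZ, jqModC, hmap, jNum, DeltaZ, map_mul, map_mul, map_pow]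
  have h1 := qinv_mul_X
  have h2 := congrArg iota dedekindEtaUnit_mul_inv
  rw [map_mul, map_one] at h2
  rw [qinv] at h1
  linear_combination (iota eisenstein4 ^ 3 * iota dedekindEtaUnitInv * iota dedekindEtaUnit) * h1
    + (iota eisenstein4 ^ 3) * h2

theorem E4_eq_C_add : ModularCurve.eisenstein4 = CZ + 9 * DZ := by
  rw [eisenstein4_eq, CZ, DZ]; ring

theorem BZ_sq_eq : BZ * BZ = CZ + DZ := by
  rw [BZ, CZ, DZ]; ring

/-- **`j T³ = (T + 27)(T + 243)³`** -/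
theorem j_T : jZ * TZ ^ 3 = (TZ + 27) * (TZ + 243) ^ 3 := by
  refine jT_abs jZ TZ (iota CZ) (iota DZ) (iota (BZ * BZ)) (iota DeltaZ)
    (iota ModularCurve.eisenstein4) iota_DZ_ne_zero TZ_mul_D jZ_mul_Delta ?_ ?_ ?_
  · rw [E4_eq_C_add, map_add, map_mul, map_ofNat]
  · rw [BZ_sq_eq, map_add]
  · have h := congrArg iota i3Series.reduced
    rw [map_mul, map_mul, map_mul, map_pow, map_pow, map_ofNat] at h
    rw [map_mul]
    linear_combination h

/-- `j(q³)` -/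
abbrev jZ3 : LaurentSeries ℤ := qExpand ℤ 3 jZ

/-- `j(q⁹)` -/
abbrev jZ9 : LaurentSeries ℤ := qExpand ℤ 9 jZ

/-- **`j(q³) T = (T + 27)(T + 3)³`** -/
theorem j3_T : jZ3 * TZ = (TZ + 27) * (TZ + 3) ^ 3 := by
  refine j3T_abs jZ3 TZ (iota CZ) (iota DZ) (iota (expand 3 DeltaZ))
    (iota (expand 3 ModularCurve.eisenstein4)) iota_DZ_ne_zero TZ_mul_D ?_ ?_ ?_
  · have h := congrArg (qExpand ℤ 3) jZ_mul_Delta
    rw [map_mul, map_pow, ← iota_expand, ← iota_expand] at h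
    exact h
  · have h := congrArg iota e4_three
    rw [map_mul, map_add, map_mul, iota_C] at h
    exact_mod_cast h
  · have h := congrArg iota delta_three
    rw [map_mul, map_mul, map_mul, map_mul, map_mul, map_add, iota_C] at h
    exact_mod_cast h

/-- **`j t⁹ (t² + 9t + 27) = (t + 9)³ (t³ + 243t² + 2187t + 6561)³`** -/
theorem j_t : jZ * (tZ ^ 9 * (tZ ^ 2 + 9 * tZ + 27)) =
    (tZ + 9) ^ 3 * (tZ ^ 3 + 243 * tZ ^ 2 + 2187 * tZ + 6561) ^ 3 :=
  jt_abs jZ TZ tZ j_T t_cube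

/-- **`j(q³) t³ (t² + 9t + 27)³ = (t + 9)³ (t³ + 3t² + 27t + 81)³`** -/
theorem j3_t : jZ3 * (tZ ^ 3 * (tZ ^ 2 + 9 * tZ + 27) ^ 3) =
    (tZ + 9) ^ 3 * (tZ ^ 3 + 3 * tZ ^ 2 + 27 * tZ + 81) ^ 3 :=
  j3t_abs jZ3 TZ tZ j3_T t_cube

/-- **`j(q⁹) t (t² + 9t + 27) = (t + 3)³ (t³ + 9t² + 27t + 3)³`** -/
theorem j9_t : jZ9 * (tZ * (tZ ^ 2 + 9 * tZ + 27)) =
    (tZ + 3) ^ 3 * (tZ ^ 3 + 9 * tZ ^ 2 + 27 * tZ + 3) ^ 3 := by
  refine j9t_abs jZ9 TZ3 tZ ?_ t_cubic
  have h := congrArg (qExpand ℤ 3) j3_T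
  rw [map_mul, map_mul, map_pow, map_add, map_add, map_ofNat, map_ofNat, jZ3,
    qExpand_qExpand] at h
  exact h


/-! ### leading term of `t` -/

/-- `q t ∈ ℤ[[q]]`, with constant term `1` -/
def tNum : PowerSeries ℤ := n0Z * uZinv

theorem tZ_eq : tZ = HahnSeries.single (-1 : ℤ) (1 : ℤ) * HahnSeries.ofPowerSeries ℤ ℤ tNum := rfl

theorem constantCoeff_uZinv : constantCoeff uZinv = 1 := by
  have h := congrArg (constantCoeff (R := ℤ)) uZ_mul_inv
  rwa [map_mul, constantCoeff_uZ, one_mul, map_one] at h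

theorem constantCoeff_expand_bZ : constantCoeff (expand 3 bZ) = 0 := by
  rw [← coeff_zero_eq_constantCoeff_apply, coeff_expand, if_pos (dvd_zero 3), Nat.zero_div,
    coeff_zero_eq_constantCoeff_apply, constantCoeff_bZ]

theorem constantCoeff_tNum : constantCoeff tNum = 1 := by
  rw [tNum, n0Z]
  simp only [map_mul, map_sub, map_add, map_one, constantCoeff_BZ, constantCoeff_bZ,
    constantCoeff_S3Z, constantCoeff_expand_bZ, constantCoeff_uZinv, mul_zero, add_zero, sub_zero,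
    mul_one]

theorem coeff_tZ_neg_one : tZ.coeff (-1) = 1 := by
  rw [tZ_eq, HahnSeries.coeff_single_mul, one_mul, sub_self,
    show (0 : ℤ) = ((0 : ℕ) : ℤ) from rfl, HahnSeries.ofPowerSeries_apply_coeff,
    coeff_zero_eq_constantCoeff_apply, constantCoeff_tNum]

theorem coeff_tZ_of_lt {k : ℤ} (hk : k < -1) : tZ.coeff k = 0 := by
  rw [tZ_eq, HahnSeries.coeff_single_mul, one_mul]
  exact ofPowerSeries_coeff_of_neg _ (by omega)

theorem tZ_ne_zero : tZ ≠ 0 := fun h => by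
  have := coeff_tZ_neg_one
  rw [h] at this
  simp at this

end

end Fermat.Agent.S18.Haupt9
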